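import Mathlib

/-!
Functions on the upper half plane given by integral power series in `q`.
-/

set_option autoImplicit false

noncomputable section

open UpperHalfPlane Complex Finset
open Function.Periodic (qParam)
open scoped MatrixGroups

namespace FermatAgent.Eisenstein

/-- `f z = ∑ P_n q ^ n` with absolute convergence on the upper half plane. -/
def HasSer (f : ℍ → ℂ) (P : PowerSeries ℤ) : Prop :=
  ∀ z : ℍ, HasSum (fun n : ℕ => ((P.coeff n : ℤ) : ℂ) * qParam 1 (z : ℂ) ^ n) (f z)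

lemma pos_of_neZero (p : ℕ) [NeZero p] : (0 : ℝ) < p := by
  exact_mod_cast Nat.pos_of_ne_zero (NeZero.ne p)

/-- The point `p z`. -/
def scalePt (p : ℕ) [NeZero p] (z : ℍ) : ℍ :=
  ⟨(p : ℂ) * z, by simpa using mul_pos (pos_of_neZero p) z.im_pos⟩

/-- The point `(z + j) / p`. -/
def shiftPt (p : ℕ) [NeZero p] (j : ℤ) (z : ℍ) : ℍ :=
  ⟨((z : ℂ) + j) / p, by simpa using div_pos z.im_pos (pos_of_neZero p)⟩

/-- The point `-1 / (p z)`. -/
def negInvPt (p : ℕ) [NeZero p] (z : ℍ) : ℍ :=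
  ⟨-((p : ℂ) * z)⁻¹, by
    have := (scalePt p z).im_inv_neg_coe_pos
    simpa [scalePt, inv_neg] using this⟩

@[simp] lemma coe_scalePt (p : ℕ) [NeZero p] (z : ℍ) : (scalePt p z : ℂ) = (p : ℂ) * z := rfl

@[simp] lemma coe_shiftPt (p : ℕ) [NeZero p] (j : ℤ) (z : ℍ) :
    (shiftPt p j z : ℂ) = ((z : ℂ) + j) / p := rfl

@[simp] lemma coe_negInvPt (p : ℕ) [NeZero p] (z : ℍ) :
    (negInvPt p z : ℂ) = -((p : ℂ) * z)⁻¹ := rfl

/-- `P(q) ↦ P(q ^ p)`. -/
def dilate (p : ℕ) [NeZero p] (P : PowerSeries ℤ) : PowerSeries ℤ :=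
  PowerSeries.mk fun n => if p ∣ n then P.coeff (n / p) else 0

/-- `∑ aₙ qⁿ ↦ ∑ a_{pn} qⁿ`. -/
def contract (p : ℕ) (P : PowerSeries ℤ) : PowerSeries ℤ :=
  PowerSeries.mk fun n => P.coeff (p * n)

@[simp] lemma coeff_dilate (p : ℕ) [NeZero p] (P : PowerSeries ℤ) (n : ℕ) :
    (dilate p P).coeff n = if p ∣ n then P.coeff (n / p) else 0 := PowerSeries.coeff_mk _ _

@[simp] lemma coeff_contract (p : ℕ) (P : PowerSeries ℤ) (n : ℕ) :
    (contract p P).coeff n = P.coeff (p * n) := PowerSeries.coeff_mk _ _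

namespace HasSer

variable {f g : ℍ → ℂ} {P Q : PowerSeries ℤ}

lemma congr_fun' (hf : HasSer f P) (h : ∀ z, g z = f z) : HasSer g P := fun z => h z ▸ hf z

lemma const (a : ℤ) : HasSer (fun _ => (a : ℂ)) (PowerSeries.C a) := fun z => by
  convert hasSum_single (f := fun n : ℕ =>
    (((PowerSeries.C a).coeff n : ℤ) : ℂ) * qParam 1 (z : ℂ) ^ n) 0 ?_ using 1
  · simp
  · intro n hn
    rw [PowerSeries.coeff_C, if_neg hn, Int.cast_zero, zero_mul]

lemma add (hf : HasSer f P) (hg : HasSer g Q) : HasSer (f + g) (P + Q) := fun z => by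
  simpa [add_mul] using (hf z).add (hg z)

lemma neg (hf : HasSer f P) : HasSer (-f) (-P) := fun z => by
  simpa [neg_mul] using (hf z).neg

lemma sub (hf : HasSer f P) (hg : HasSer g Q) : HasSer (f - g) (P - Q) := by
  rw [sub_eq_add_neg, sub_eq_add_neg]
  exact hf.add hg.neg

lemma const_mul (a : ℤ) (hf : HasSer f P) :
    HasSer (fun z => (a : ℂ) * f z) (PowerSeries.C a * P) := fun z => by
  refine ((hf z).mul_left (a : ℂ)).congr_fun fun n => ?_
  rw [PowerSeries.coeff_C_mul, Int.cast_mul, mul_assoc]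

lemma mul (hf : HasSer f P) (hg : HasSer g Q) : HasSer (f * g) (P * Q) := fun z => by
  have h1 := (hf z).summable.norm
  have h2 := (hg z).summable.norm
  have hs := (summable_sum_mul_antidiagonal_of_summable_mul
    (summable_mul_of_summable_norm h1 h2)).hasSum
  rw [← tsum_mul_tsum_eq_tsum_sum_antidiagonal_of_summable_norm h1 h2, (hf z).tsum_eq,
    (hg z).tsum_eq] at hs
  refine hs.congr_fun fun n => ?_
  rw [PowerSeries.coeff_mul, Int.cast_sum, Finset.sum_mul]
  refine Finset.sum_congr rfl fun ij hij => ?_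
  rw [← Finset.HasAntidiagonal.mem_antidiagonal.mp hij, pow_add]
  push_cast
  ring

lemma pow (hf : HasSer f P) (n : ℕ) : HasSer (f ^ n) (P ^ n) := by
  induction n with
  | zero =>
    rw [pow_zero, pow_zero, ← map_one (PowerSeries.C (R := ℤ))]
    exact (HasSer.const 1).congr_fun' fun z => by simp
  | succ n ih => rw [pow_succ, pow_succ]; exact ih.mul hf

lemma comp_scalePt (p : ℕ) [NeZero p] (hf : HasSer f P) :
    HasSer (fun z => f (scalePt p z)) (dilate p P) := fun z => by
  have hq : qParam 1 (scalePt p z : ℂ) = qParam 1 (z : ℂ) ^ p := by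
    simp only [qParam, coe_scalePt, ← Complex.exp_nat_mul]
    push_cast
    ring_nf
  have h := hf (scalePt p z)
  simp only [hq, ← pow_mul] at h
  have hi : Function.Injective (fun n : ℕ => p * n) :=
    mul_right_injective₀ (NeZero.ne p)
  refine (hi.hasSum_iff ?_).mp (h.congr_fun fun n => ?_)
  · intro n hn
    have : ¬ p ∣ n := fun ⟨m, hm⟩ => hn ⟨m, hm.symm⟩
    simp [this]
  · simp [Nat.pos_of_ne_zero (NeZero.ne p)]

lemma sum_shiftPt (p : ℕ) [NeZero p] (hf : HasSer f P) :
    HasSer (fun z => ∑ j ∈ range p, f (shiftPt p j z))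
      (PowerSeries.C (p : ℤ) * contract p P) := fun z => by
  set w := qParam 1 ((z : ℂ) / p) with hw
  set ζ := Complex.exp (2 * Real.pi * Complex.I / p) with hζ
  have hp : (p : ℂ) ≠ 0 := by exact_mod_cast NeZero.ne p
  have hprim : IsPrimitiveRoot ζ p := Complex.isPrimitiveRoot_exp p (NeZero.ne p)
  have hq : ∀ j : ℕ, qParam 1 (shiftPt p j z : ℂ) = ζ ^ j * w := by
    intro j
    simp only [qParam, coe_shiftPt, hζ, hw, ← Complex.exp_nat_mul, ← Complex.exp_add]
    push_cast
    congr 1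
    field_simp
    ring
  have h : HasSum (fun n : ℕ => ((P.coeff n : ℤ) : ℂ) * w ^ n * ∑ j ∈ range p, (ζ ^ n) ^ j)
      (∑ j ∈ range p, f (shiftPt p j z)) := by
    refine (hasSum_sum (s := range p) fun j _ => hf (shiftPt p j z)).congr_fun fun n => ?_
    rw [Finset.mul_sum]
    refine Finset.sum_congr rfl fun j _ => ?_
    rw [hq j, mul_pow, ← pow_mul, ← pow_mul, mul_comm j n]
    ring
  have hi : Function.Injective (fun n : ℕ => p * n) :=
    mul_right_injective₀ (NeZero.ne p)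
  refine ((hi.hasSum_iff ?_).mpr h).congr_fun fun n => ?_
  · intro n hn
    have hne : ζ ^ n ≠ 1 := fun h1 => hn ⟨n / p, Nat.mul_div_cancel'
      ((hprim.pow_eq_one_iff_dvd n).mp h1)⟩
    rw [geom_sum_eq hne, ← pow_mul, mul_comm n p, pow_mul, hprim.pow_eq_one, one_pow, sub_self,
      zero_div, mul_zero]
  · have hwp : w ^ p = qParam 1 (z : ℂ) := by
      simp only [qParam, hw, ← Complex.exp_nat_mul]
      congr 1
      push_cast
      field_simp
    simp only [Function.comp_apply, PowerSeries.coeff_C_mul, coeff_contract, pow_mul, hwp,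
      hprim.pow_eq_one, one_pow, Finset.sum_const, Finset.card_range]
    push_cast
    rw [nsmul_one]
    ring

lemma isBoundedAtImInfty (hf : HasSer f P) : IsBoundedAtImInfty f :=
  isBoundedAtImInfty_of_hasSum_qExpansion one_pos fun z => by simpa using hf z

lemma qExpansion_eq {Γ : Subgroup (GL (Fin 2) ℝ)} {k : ℤ} {F : Type*} [FunLike F ℍ ℂ]
    [ModularFormClass F Γ k] {φ : F} (hΓ : (1 : ℝ) ∈ Γ.strictPeriods) (hf : HasSer φ P) :
    qExpansion 1 (φ : ℍ → ℂ) = P.map (Int.castRingHom ℂ) := by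
  ext n
  rw [PowerSeries.coeff_map, eq_intCast]
  exact (ModularFormClass.qExpansion_coeff_unique one_pos hΓ
    (c := fun n => ((P.coeff n : ℤ) : ℂ)) (fun z => by simpa using hf z) n).symm

lemma eq_zero (hf : HasSer 0 P) : P = 0 := by
  have h0 : HasSer ((0 : ModularForm 𝒮ℒ 12) : ℍ → ℂ) P := by simpa using hf
  have h := h0.qExpansion_eq one_mem_strictPeriods_SL
  rw [FunLike.coe_zero, qExpansion_zero] at h
  exact PowerSeries.map_injective _ Int.cast_injective (by rw [← h, map_zero])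

/-- A form for a group containing the translation by one, with integral expansion. -/
lemma of_qExpansion {Γ : Subgroup (GL (Fin 2) ℝ)} {k : ℤ} {F : Type*} [FunLike F ℍ ℂ]
    [ModularFormClass F Γ k] [Fact (IsCusp OnePoint.infty Γ)] (φ : F)
    (hΓ : (1 : ℝ) ∈ Γ.strictPeriods)
    (h : ∀ n, (qExpansion 1 (φ : ℍ → ℂ)).coeff n = ((P.coeff n : ℤ) : ℂ)) : HasSer φ P :=
  fun z => by
    have := ModularForm.hasSum_qExpansion (f := φ) one_pos hΓ z
    simpa [h] using this

end HasSer

end FermatAgent.Eisenstein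

end
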