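import Mathlib
import Fermat.Agent.Eisenstein.QSeries

/-!
Functions invariant under `Γ₀(p)` with integral expansions at both cusps, and their traces to
level one.
-/

set_option autoImplicit false

noncomputable section

open UpperHalfPlane CongruenceSubgroup ModularGroup Finset
open scoped MatrixGroups ModularForm Manifold

namespace FermatAgent.Eisenstein

variable {p : ℕ} {k : ℕ} {f g : ℍ → ℂ}

/-- `z ↦ z ^ (-k) f (-1 / (p z))`. -/
def starFun (p : ℕ) [NeZero p] (k : ℕ) (f : ℍ → ℂ) : ℍ → ℂ :=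
  fun z => ((z : ℂ) ^ k)⁻¹ * f (negInvPt p z)

lemma slash_S_apply_eq (f : ℍ → ℂ) (k : ℕ) (w : ℍ) :
    (f ∣[(k : ℤ)] S) w = ((w : ℂ) ^ k)⁻¹ * f (S • w) := by
  rw [ModularForm.SL_slash_apply, denom_S, zpow_neg, zpow_natCast, mul_comm]

lemma starFun_eq_slash (p : ℕ) [NeZero p] (k : ℕ) (f : ℍ → ℂ) (z : ℍ) :
    starFun p k f z = (p : ℂ) ^ k * (f ∣[(k : ℤ)] S) (scalePt p z) := by
  have h : S • scalePt p z = negInvPt p z := by
    ext1
    rw [modular_S_smul]
    simp [inv_neg]
  rw [slash_S_apply_eq, h, starFun, coe_scalePt, mul_pow]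
  have hp : ((p : ℂ)) ^ k ≠ 0 := pow_ne_zero _ (by exact_mod_cast NeZero.ne p)
  field_simp

lemma slash_T_zpow_apply (f : ℍ → ℂ) (k : ℤ) (j : ℤ) (z : ℍ) :
    (f ∣[k] (T ^ j)) z = f ((j : ℝ) +ᵥ z) := by
  rw [ModularForm.SL_slash_apply, modular_T_zpow_smul, denom_apply, coe_T_zpow]
  simp

section Invariant

lemma slash_eq_of_row (hinv : ∀ γ ∈ Gamma0 p, f ∣[(k : ℤ)] γ = f) {x y : SL(2, ℤ)}
    (h : ((x 1 0 : ℤ) : ZMod p) * (y 1 1 : ℤ) - ((x 1 1 : ℤ) : ZMod p) * (y 1 0 : ℤ) = 0) :
    f ∣[(k : ℤ)] x = f ∣[(k : ℤ)] y := by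
  have hmem : x * y⁻¹ ∈ Gamma0 p := by
    rw [Gamma0_mem]
    rw [Matrix.SpecialLinearGroup.coe_mul, Matrix.SpecialLinearGroup.coe_inv,
      Matrix.adjugate_fin_two, Matrix.mul_apply, Fin.sum_univ_two]
    simp
    linear_combination h
  calc f ∣[(k : ℤ)] x = f ∣[(k : ℤ)] (x * y⁻¹ * y) := by rw [inv_mul_cancel_right]
    _ = f ∣[(k : ℤ)] y := by rw [SlashAction.slash_mul, hinv _ hmem]

/-- Coset representatives of `Γ₀(p)`. -/
def cosetRep (p : ℕ) : Option (ZMod p) → SL(2, ℤ)
  | none => 1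
  | some j => S * T ^ (j.val : ℤ)

lemma cosetRep_some_entries (j : ZMod p) :
    ((cosetRep p (some j)) 1 0 : ℤ) = 1 ∧ ((cosetRep p (some j)) 1 1 : ℤ) = (j.val : ℤ) := by
  constructor <;>
    · rw [cosetRep, Matrix.SpecialLinearGroup.coe_mul, coe_T_zpow]
      simp [Matrix.mul_apply, Fin.sum_univ_two, S, -ZMod.natCast_val]

variable [hp : Fact p.Prime]

/-- The effect of `T` on the cosets. -/
def permT : Equiv.Perm (Option (ZMod p)) := Equiv.optionCongr (Equiv.addRight 1)

/-- The effect of `S` on the cosets. -/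
def actS : Option (ZMod p) → Option (ZMod p)
  | none => some 0
  | some j => if j = 0 then none else some (-j⁻¹)

lemma actS_involutive : Function.Involutive (actS (p := p)) := by
  intro x
  cases x with
  | none => simp [actS]
  | some j =>
    by_cases hj : j = 0
    · simp [actS, hj]
    · simp [actS, hj, inv_eq_zero, inv_neg]

lemma slash_rep_T (hinv : ∀ γ ∈ Gamma0 p, f ∣[(k : ℤ)] γ = f) (x : Option (ZMod p)) :
    f ∣[(k : ℤ)] (cosetRep p x * T) = f ∣[(k : ℤ)] cosetRep p (permT x) := by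
  refine slash_eq_of_row hinv ?_
  cases x with
  | none =>
    simp only [permT, Equiv.optionCongr_apply, Option.map_none, cosetRep, one_mul,
      Matrix.SpecialLinearGroup.coe_one]
    simp [T]
  | some j =>
    obtain ⟨h0, h1⟩ := cosetRep_some_entries (p := p) j
    obtain ⟨h0', h1'⟩ := cosetRep_some_entries (p := p) (j + 1)
    simp only [permT, Equiv.optionCongr_apply, Option.map_some, Equiv.coe_addRight,
      Matrix.SpecialLinearGroup.coe_mul, Matrix.mul_apply, Fin.sum_univ_two, h0, h1, h0', h1']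
    simp [T]
    ring

lemma slash_rep_S (hinv : ∀ γ ∈ Gamma0 p, f ∣[(k : ℤ)] γ = f) (x : Option (ZMod p)) :
    f ∣[(k : ℤ)] (cosetRep p x * S) = f ∣[(k : ℤ)] cosetRep p (actS x) := by
  refine slash_eq_of_row hinv ?_
  cases x with
  | none =>
    obtain ⟨h0', h1'⟩ := cosetRep_some_entries (p := p) 0
    simp only [actS, h0', h1']
    simp only [cosetRep, one_mul]
    simp [S]
  | some j =>
    obtain ⟨h0, h1⟩ := cosetRep_some_entries (p := p) j
    by_cases hj : j = 0
    · subst hj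
      simp only [actS, if_true, Matrix.SpecialLinearGroup.coe_mul, Matrix.mul_apply,
        Fin.sum_univ_two, h0, h1]
      simp [S, cosetRep]
    · obtain ⟨h0', h1'⟩ := cosetRep_some_entries (p := p) (-j⁻¹)
      simp only [actS, if_neg hj, Matrix.SpecialLinearGroup.coe_mul, Matrix.mul_apply,
        Fin.sum_univ_two, h0, h1, h0', h1']
      simp [S, hj]

/-- The sum of the translates of `f` over the cosets. -/
def cosetSum (p : ℕ) [NeZero p] (k : ℕ) (f : ℍ → ℂ) : ℍ → ℂ :=
  ∑ x : Option (ZMod p), f ∣[(k : ℤ)] cosetRep p x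

lemma cosetSum_slash (hinv : ∀ γ ∈ Gamma0 p, f ∣[(k : ℤ)] γ = f) (γ : SL(2, ℤ)) :
    cosetSum p k f ∣[(k : ℤ)] γ = cosetSum p k f := by
  have : γ ∈ Subgroup.closure {S, T} := by simp [SpecialLinearGroup.SL2Z_generators]
  induction this using Subgroup.closure_induction with
  | one => simp
  | mem x hx =>
    rcases hx with rfl | rfl
    · simp only [cosetSum, SlashAction.sum_slash, ← SlashAction.slash_mul, slash_rep_S hinv]
      exact Equiv.sum_comp actS_involutive.toPerm fun y => f ∣[(k : ℤ)] cosetRep p y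
    · simp only [cosetSum, SlashAction.sum_slash, ← SlashAction.slash_mul, slash_rep_T hinv]
      exact Equiv.sum_comp permT fun y => f ∣[(k : ℤ)] cosetRep p y
  | mul x y _ _ hx hy => rw [SlashAction.slash_mul, hx, hy]
  | inv x _ hx => nth_rw 1 [← hx, ← SlashAction.slash_mul, mul_inv_cancel, SlashAction.slash_one]

/-- `p ^ k f + ∑ⱼ (star f)((z + j) / p)`. -/
def traceFun (p : ℕ) [NeZero p] (k : ℕ) (f : ℍ → ℂ) : ℍ → ℂ :=
  fun z => (p : ℂ) ^ k * f z + ∑ j ∈ range p, starFun p k f (shiftPt p j z)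

lemma starFun_shiftPt (p : ℕ) [NeZero p] (k : ℕ) (f : ℍ → ℂ) (j : ℤ) (z : ℍ) :
    starFun p k f (shiftPt p j z) = (p : ℂ) ^ k * (f ∣[(k : ℤ)] (S * T ^ j)) z := by
  have hp : (p : ℂ) ≠ 0 := by exact_mod_cast NeZero.ne p
  have h : scalePt p (shiftPt p j z) = (j : ℝ) +ᵥ z := by
    ext1
    simp [mul_div_cancel₀, hp, add_comm]
  rw [starFun_eq_slash, h, SlashAction.slash_mul, slash_T_zpow_apply]

lemma traceFun_eq (f : ℍ → ℂ) :
    traceFun p k f = (p : ℂ) ^ k • cosetSum p k f := by
  funext z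
  simp only [traceFun, starFun_shiftPt, cosetSum, Pi.smul_apply, smul_eq_mul, Finset.sum_apply,
    Fintype.sum_option, Pi.add_apply, mul_add, Finset.mul_sum]
  congr 1
  · simp [cosetRep]
  · refine Finset.sum_nbij' (fun j => (j : ZMod p)) ZMod.val
      (fun j _ => Finset.mem_univ _) (fun j _ => Finset.mem_range.mpr j.val_lt)
      (fun j hj => ZMod.val_cast_of_lt (Finset.mem_range.mp hj))
      (fun j _ => ZMod.natCast_zmod_val j) (fun j hj => ?_)
    rw [cosetRep, ZMod.val_cast_of_lt (Finset.mem_range.mp hj)]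

lemma mdifferentiable_traceFun (hholo : MDiff f) : MDiff (traceFun p k f) := by
  rw [traceFun_eq]
  refine MDifferentiable.const_smul ((p : ℂ) ^ k) ?_
  exact MDifferentiable.sum fun x _ => hholo.slash (k : ℤ) _

/-- The trace as a level one form, given boundedness at infinity. -/
def traceForm (hinv : ∀ γ ∈ Gamma0 p, f ∣[(k : ℤ)] γ = f) (hholo : MDiff f)
    (hbdd : IsBoundedAtImInfty (traceFun p k f)) : ModularForm 𝒮ℒ (k : ℤ) where
  toFun := traceFun p k f
  slash_action_eq' := by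
    rintro _ ⟨γ, rfl⟩
    rw [traceFun_eq]
    exact (ModularForm.SL_smul_slash _ γ _ _).trans (by rw [cosetSum_slash hinv])
  holo' := mdifferentiable_traceFun hholo
  bdd_at_cusps' := by
    intro c hc
    rw [Subgroup.IsArithmetic.isCusp_iff_isCusp_SL2Z] at hc
    rw [OnePoint.isBoundedAt_iff_forall_SL2Z hc]
    intro γ _
    rw [traceFun_eq, ModularForm.SL_smul_slash, cosetSum_slash hinv, ← traceFun_eq]
    exact hbdd

end Invariant

/-- A weight `k` function for `Γ₀(p)` with integral expansions `P` at `∞` and `Q` at `0`. -/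
structure HasExp (p : ℕ) [NeZero p] (k : ℕ) (f : ℍ → ℂ) (P Q : PowerSeries ℤ) : Prop where
  inv : ∀ γ ∈ Gamma0 p, f ∣[(k : ℤ)] γ = f
  holo : MDiff f
  ser : HasSer f P
  serStar : HasSer (starFun p k f) Q

namespace HasExp

variable [NeZero p] {P Q P' Q' : PowerSeries ℤ} {k' : ℕ}

lemma add (hf : HasExp p k f P Q) (hg : HasExp p k g P' Q') :
    HasExp p k (f + g) (P + P') (Q + Q') where
  inv γ hγ := by rw [SlashAction.add_slash, hf.inv γ hγ, hg.inv γ hγ]
  holo := hf.holo.add hg.holo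
  ser := hf.ser.add hg.ser
  serStar := (hf.serStar.add hg.serStar).congr_fun' fun z => by simp [starFun, mul_add]

lemma const_mul (a : ℤ) (hf : HasExp p k f P Q) :
    HasExp p k (fun z => (a : ℂ) * f z) (PowerSeries.C a * P) (PowerSeries.C a * Q) where
  inv γ hγ := by
    rw [show (fun z => (a : ℂ) * f z) = (a : ℂ) • f from rfl, ModularForm.SL_smul_slash,
      hf.inv γ hγ]
  holo := by
    rw [show (fun z => (a : ℂ) * f z) = (a : ℂ) • f from rfl]
    exact hf.holo.const_smul _
  ser := hf.ser.const_mul a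
  serStar := (hf.serStar.const_mul a).congr_fun' fun z => by simp [starFun]; ring

lemma sub (hf : HasExp p k f P Q) (hg : HasExp p k g P' Q') :
    HasExp p k (f - g) (P - P') (Q - Q') := by
  have := hf.add (hg.const_mul (-1))
  convert this using 1
  · funext z; simp [sub_eq_add_neg]
  · simp [sub_eq_add_neg]
  · simp [sub_eq_add_neg]

lemma mul (hf : HasExp p k f P Q) (hg : HasExp p k' g P' Q') :
    HasExp p (k + k') (f * g) (P * P') (Q * Q') where
  inv γ hγ := by
    rw [Nat.cast_add, ModularForm.mul_slash_SL2, hf.inv γ hγ, hg.inv γ hγ]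
  holo := hf.holo.mul hg.holo
  ser := hf.ser.mul hg.ser
  serStar := (hf.serStar.mul hg.serStar).congr_fun' fun z => by
    simp only [starFun, Pi.mul_apply, pow_add, mul_inv]
    ring

lemma one : HasExp p 0 1 1 1 where
  inv γ _ := by rw [Nat.cast_zero]; exact ModularForm.is_invariant_one γ
  holo := mdifferentiable_const
  ser := (HasSer.pow (f := 1) (P := 1) (HasSer.const 1 |>.congr_fun' fun z => by simp) 0)
    |>.congr_fun' fun z => by simp
  serStar := (HasSer.const 1).congr_fun' fun z => by simp [starFun]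

lemma pow (hf : HasExp p k f P Q) (n : ℕ) : HasExp p (n * k) (f ^ n) (P ^ n) (Q ^ n) := by
  induction n with
  | zero => simpa using one
  | succ n ih => simpa [pow_succ, Nat.succ_mul] using ih.mul hf

variable [Fact p.Prime]

omit [Fact p.Prime] in
lemma hasSer_traceFun (hf : HasExp p k f P Q) :
    HasSer (traceFun p k f)
      (PowerSeries.C ((p : ℤ) ^ k) * P + PowerSeries.C (p : ℤ) * contract p Q) :=
  ((hf.ser.const_mul ((p : ℤ) ^ k)).add (hf.serStar.sum_shiftPt p)).congr_fun' fun z => by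
    simp [traceFun]

/-- The scaled trace to level one, with its integral expansion. -/
lemma exists_levelOne (hf : HasExp p k f P Q) :
    ∃ h : ModularForm 𝒮ℒ (k : ℤ), ⇑h = traceFun p k f ∧
      HasSer h (PowerSeries.C ((p : ℤ) ^ k) * P + PowerSeries.C (p : ℤ) * contract p Q) :=
  ⟨traceForm hf.inv hf.holo hf.hasSer_traceFun.isBoundedAtImInfty, rfl, hf.hasSer_traceFun⟩

end HasExp

end FermatAgent.Eisenstein

end
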