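import Mathlib
import Fermat.Agent.Eisenstein.QSeries

/-!
Level one: integral expansions of `E₄`, `E₆`, `Δ`, congruences and values at `ρ` of forms of
weight divisible by six with integral coefficients.
-/

set_option autoImplicit false

noncomputable section

open UpperHalfPlane Complex ModularForm EisensteinSeries Finset
open scoped MatrixGroups ModularForm Manifold ArithmeticFunction.sigma

namespace FermatAgent.Eisenstein

instance factIsCuspInftySL : Fact (IsCusp OnePoint.infty 𝒮ℒ) :=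
  ⟨by rw [Subgroup.IsArithmetic.isCusp_iff_isCusp_SL2Z, isCusp_SL2Z_iff']; exact ⟨1, by simp⟩⟩

/-- The expansion of `E₄`. -/
def e4Ser : PowerSeries ℤ := PowerSeries.mk fun n => if n = 0 then 1 else 240 * (σ 3 n : ℤ)

/-- The expansion of `E₆`. -/
def e6Ser : PowerSeries ℤ := PowerSeries.mk fun n => if n = 0 then 1 else -504 * (σ 5 n : ℤ)

/-- `∑ σ₃(n) qⁿ`. -/
def s3Ser : PowerSeries ℤ := PowerSeries.mk fun n => (σ 3 n : ℤ)

/-- `∑ σ₅(n) qⁿ`. -/
def s5Ser : PowerSeries ℤ := PowerSeries.mk fun n => (σ 5 n : ℤ)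

@[simp] lemma coeff_s3Ser (n : ℕ) : s3Ser.coeff n = (σ 3 n : ℤ) := PowerSeries.coeff_mk _ _

@[simp] lemma coeff_s5Ser (n : ℕ) : s5Ser.coeff n = (σ 5 n : ℤ) := PowerSeries.coeff_mk _ _

lemma e4Ser_eq : e4Ser = 1 + PowerSeries.C 240 * s3Ser := by
  ext n
  rw [map_add, PowerSeries.coeff_C_mul, coeff_s3Ser, PowerSeries.coeff_one, e4Ser,
    PowerSeries.coeff_mk]
  rcases eq_or_ne n 0 with rfl | hn <;> simp [*]

lemma e6Ser_eq : e6Ser = 1 - PowerSeries.C 504 * s5Ser := by
  ext n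
  rw [map_sub, PowerSeries.coeff_C_mul, coeff_s5Ser, PowerSeries.coeff_one, e6Ser,
    PowerSeries.coeff_mk]
  rcases eq_or_ne n 0 with rfl | hn <;> simp [*]

@[simp] lemma coeff_zero_e4Ser : e4Ser.coeff 0 = 1 := by simp [e4Ser]

@[simp] lemma coeff_zero_e6Ser : e6Ser.coeff 0 = 1 := by simp [e6Ser]

lemma hasSer_E4 : HasSer (E₄ : ℍ → ℂ) e4Ser := by
  refine HasSer.of_qExpansion _ one_mem_strictPeriods_SL fun n => ?_
  rw [E_qExpansion_coeff _ ⟨2, rfl⟩, show bernoulli 4 = -1 / 30 by decide +kernel]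
  rcases eq_or_ne n 0 with rfl | hn
  · simp
  · simp [e4Ser, hn]
    norm_num

lemma hasSer_E6 : HasSer (E₆ : ℍ → ℂ) e6Ser := by
  refine HasSer.of_qExpansion _ one_mem_strictPeriods_SL fun n => ?_
  rw [E_qExpansion_coeff _ ⟨3, rfl⟩, show bernoulli 6 = 1 / 42 by decide +kernel]
  rcases eq_or_ne n 0 with rfl | hn
  · simp
  · simp [e6Ser, hn]
    norm_num

lemma twelve_dvd_sigma (n : ℕ) : (12 : ℤ) ∣ 5 * (σ 3 n : ℤ) + 7 * (σ 5 n : ℤ) := by
  rw [ArithmeticFunction.sigma_apply, ArithmeticFunction.sigma_apply]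
  push_cast
  rw [Finset.mul_sum, Finset.mul_sum, ← Finset.sum_add_distrib]
  refine Finset.dvd_sum fun d _ => ?_
  have : ∀ x : ZMod 12, 5 * x ^ 3 + 7 * x ^ 5 = 0 := by decide
  refine (ZMod.intCast_zmod_eq_zero_iff_dvd _ 12).mp ?_
  push_cast
  exact this _

/-- The expansion of `Δ`. -/
def deltaSer : PowerSeries ℤ :=
  PowerSeries.mk (fun n => (5 * (σ 3 n : ℤ) + 7 * (σ 5 n : ℤ)) / 12) +
    PowerSeries.C 100 * s3Ser ^ 2 + PowerSeries.C 8000 * s3Ser ^ 3 -
    PowerSeries.C 147 * s5Ser ^ 2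

lemma C_mul_deltaSer : PowerSeries.C 1728 * deltaSer = e4Ser ^ 3 - e6Ser ^ 2 := by
  have hA : PowerSeries.C 12 *
      PowerSeries.mk (fun n => (5 * (σ 3 n : ℤ) + 7 * (σ 5 n : ℤ)) / 12) =
      PowerSeries.C 5 * s3Ser + PowerSeries.C 7 * s5Ser := by
    ext n
    simp only [PowerSeries.coeff_C_mul, PowerSeries.coeff_mk, map_add, coeff_s3Ser, coeff_s5Ser]
    exact Int.mul_ediv_cancel' (twelve_dvd_sigma n)
  rw [e4Ser_eq, e6Ser_eq, deltaSer]
  simp only [map_ofNat] at hA ⊢
  linear_combination 144 * hA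

lemma hasSer_delta : HasSer ModularForm.discriminant deltaSer := by
  intro z
  have h := ((hasSer_E4.pow 3).sub (hasSer_E6.pow 2)) z
  rw [← C_mul_deltaSer] at h
  have h2 := h.mul_left (1 / 1728 : ℂ)
  have hz : ModularForm.discriminant z = 1 / 1728 * ((⇑E₄ ^ 3 - ⇑E₆ ^ 2 : ℍ → ℂ) z) := by
    rw [discriminant_eq_E₄_cube_sub_E₆_sq]
    simp [Pi.sub_apply]
    ring
  rw [← hz] at h2
  refine h2.congr_fun fun n => ?_
  rw [PowerSeries.coeff_C_mul]
  push_cast
  ring

@[simp] lemma coeff_zero_deltaSer : deltaSer.coeff 0 = 0 := by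
  simp [deltaSer, s3Ser, s5Ser, pow_succ]

lemma coeff_one_deltaSer : deltaSer.coeff 1 = 1 := by
  simp [deltaSer, pow_succ, PowerSeries.coeff_mul, Finset.Nat.antidiagonal_succ,
    ArithmeticFunction.sigma_one]

/-- Monic series of order one, divided by `X`. -/
def deltaUnit : PowerSeries ℤ := PowerSeries.mk fun n => deltaSer.coeff (n + 1)

lemma deltaSer_eq_X_mul : deltaSer = PowerSeries.X * deltaUnit := by
  ext n
  rcases n with _ | n
  · simp
  · simp [deltaUnit, PowerSeries.coeff_succ_X_mul]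

lemma isUnit_deltaUnit : IsUnit deltaUnit := by
  rw [PowerSeries.isUnit_iff_constantCoeff, ← PowerSeries.coeff_zero_eq_constantCoeff_apply,
    deltaUnit, PowerSeries.coeff_mk, zero_add, coeff_one_deltaSer]
  exact isUnit_one

/-- Subtracting the multiple of a power of `E₆` and dividing by `Δ`. -/
lemma exists_div_delta {v : ℕ} {k : ℤ} (hk : k = 6 * (v : ℤ)) (h : ModularForm 𝒮ℒ k)
    {P : PowerSeries ℤ} (hP : HasSer h P) :
    ∃ (h' : ModularForm 𝒮ℒ (k - 12)) (P' : PowerSeries ℤ), HasSer h' P' ∧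
      P = PowerSeries.C (P.coeff 0) * e6Ser ^ v + deltaSer * P' ∧
      ∀ z, h z = (P.coeff 0 : ℂ) * E₆ z ^ v + ModularForm.discriminant z * h' z := by
  set g : ModularForm 𝒮ℒ k :=
    h - (P.coeff 0 : ℂ) • ModularForm.mcast (by rw [hk]; ring) (E₆.pow v) with hg
  set Pg : PowerSeries ℤ := P - PowerSeries.C (P.coeff 0) * e6Ser ^ v with hPg
  have hgS : HasSer g Pg := (hP.sub ((hasSer_E6.pow v).const_mul (P.coeff 0))).congr_fun'
    fun z => by simp [hg, ModularForm.coe_pow]
  have h0 : Pg.coeff 0 = 0 := by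
    have he : PowerSeries.constantCoeff e6Ser = 1 := by
      rw [← PowerSeries.coeff_zero_eq_constantCoeff_apply, coeff_zero_e6Ser]
    simp [hPg, he]
  have hq := hgS.qExpansion_eq one_mem_strictPeriods_SL
  have hcusp : (qExpansion 1 g).coeff 0 = 0 := by
    rw [hq, PowerSeries.coeff_map, h0, map_zero]
  obtain ⟨R, hR⟩ : PowerSeries.X ∣ Pg := by
    rw [PowerSeries.X_dvd_iff, ← PowerSeries.coeff_zero_eq_constantCoeff_apply]; exact h0
  obtain ⟨u, hu⟩ := isUnit_deltaUnit
  set P' : PowerSeries ℤ := ((u⁻¹ : (PowerSeries ℤ)ˣ) : PowerSeries ℤ) * R with hP'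
  have hPP' : Pg = deltaSer * P' := by
    rw [hR, hP', deltaSer_eq_X_mul, ← hu, mul_assoc, ← mul_assoc (u : PowerSeries ℤ),
      Units.mul_inv, one_mul]
  set h' := CuspForm.discriminantEquiv (toCuspForm g hcusp) with hh'
  refine ⟨h', P', ?_, ?_, ?_⟩
  · refine HasSer.of_qExpansion h' one_mem_strictPeriods_SL fun n => ?_
    have h1 := ModularForm.qExpansion_eq_qExpansion_discriminant_mul g hcusp
    rw [hq, hPP', map_mul] at h1
    have hΔ : qExpansion 1 ModularForm.discriminant = deltaSer.map (Int.castRingHom ℂ) := by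
      have := hasSer_delta
      rw [← CuspForm.coe_discriminant] at this ⊢
      exact this.qExpansion_eq one_mem_strictPeriods_SL
    rw [hΔ] at h1
    have hne : deltaSer.map (Int.castRingHom ℂ) ≠ 0 := fun h0 => by
      have := congrArg (PowerSeries.coeff 1) h0
      simp [coeff_one_deltaSer] at this
    rw [← mul_left_cancel₀ hne h1, PowerSeries.coeff_map, eq_intCast]
  · rw [← hPP', hPg, add_sub_cancel]
  · intro z
    have hz := discriminant_mul_discriminantEquiv_apply (toCuspForm g hcusp) z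
    rw [← hh'] at hz
    rw [hz]
    simp [hg, ModularForm.coe_pow]

lemma eq_zero_of_neg {k : ℤ} (hk : k < 0) (h : ModularForm 𝒮ℒ k) : (h : ℍ → ℂ) = 0 := by
  rw [rank_zero_iff_forall_zero.mp (levelOne_neg_weight_rank_zero hk) h]
  rfl

/-- If the first coefficients vanish modulo `M`, all of them do. -/
lemma dvd_coeff_of_low (M : ℤ) (v : ℕ) : ∀ {k : ℤ}, k = 6 * (v : ℤ) →
    ∀ (h : ModularForm 𝒮ℒ k) (P : PowerSeries ℤ), HasSer h P →
      (∀ n ≤ v / 2, M ∣ P.coeff n) → ∀ n, M ∣ P.coeff n := by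
  induction v using Nat.strong_induction_on with
  | _ v ih =>
    intro k hk h P hP hlow n
    obtain ⟨h', P', hP', hdec, -⟩ := exists_div_delta hk h hP
    obtain ⟨b, hb⟩ := hlow 0 (Nat.zero_le _)
    suffices hall : ∀ m, M ∣ P'.coeff m by
      rw [hdec, map_add, PowerSeries.coeff_C_mul, PowerSeries.coeff_mul]
      exact dvd_add (Dvd.dvd.mul_right ⟨b, hb⟩ _)
        (Finset.dvd_sum fun ij _ => (hall _).mul_left _)
    rcases lt_or_ge v 2 with hv | hv
    · have : (h' : ℍ → ℂ) = 0 := eq_zero_of_neg (by omega) h'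
      rw [this] at hP'
      intro m
      simp [hP'.eq_zero]
    · refine ih (v - 2) (by omega) (k := k - 12) (by omega) h' P' hP' fun m hm => ?_
      induction m using Nat.strong_induction_on with
      | _ m ihm =>
        have h1 := hlow (m + 1) (by omega)
        rw [hdec, map_add, PowerSeries.coeff_C_mul, deltaSer_eq_X_mul, mul_assoc,
          PowerSeries.coeff_succ_X_mul, PowerSeries.coeff_mul] at h1
        have h2 := (dvd_add_right (Dvd.dvd.mul_right ⟨b, hb⟩ _)).mp h1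
        rw [← Finset.add_sum_erase _ _ (show (0, m) ∈ antidiagonal m by simp)] at h2
        have h3 : M ∣ ∑ ij ∈ (antidiagonal m).erase (0, m),
            deltaUnit.coeff ij.1 * P'.coeff ij.2 := by
          refine Finset.dvd_sum fun ij hij => (ihm ij.2 ?_ ?_).mul_left _
          all_goals
            obtain ⟨hne, hmem⟩ := Finset.mem_erase.mp hij
            have heq := Finset.HasAntidiagonal.mem_antidiagonal.mp hmem
            have : ij.1 ≠ 0 := fun h0 => hne (Prod.ext h0 (by omega))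
            omega
        have h4 := (dvd_add_left h3).mp h2
        rwa [show deltaUnit.coeff 0 = 1 by simp [deltaUnit, coeff_one_deltaSer], one_mul] at h4

/-- The point `ρ = (-1 + √-3) / 2`. -/
def rhoPt : ℍ := ⟨⟨-1 / 2, Real.sqrt 3 / 2⟩, by
  show (0 : ℝ) < Real.sqrt 3 / 2
  positivity⟩

lemma rhoPt_sq : (rhoPt : ℂ) ^ 2 + (rhoPt : ℂ) + 1 = 0 := by
  have h : Real.sqrt 3 * Real.sqrt 3 = 3 := Real.mul_self_sqrt (by norm_num)
  apply Complex.ext
  · simp only [rhoPt, sq, Complex.add_re, Complex.mul_re, Complex.one_re, Complex.zero_re]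
    linear_combination (-1 / 4 : ℝ) * h
  · simp only [rhoPt, sq, Complex.add_im, Complex.mul_im, Complex.one_im, Complex.zero_im]
    ring

lemma E4_rhoPt : E₄ rhoPt = 0 := by
  have h := congrFun (SlashInvariantFormClass.slash_action_eq E₄
    ((ModularGroup.S * ModularGroup.T : SL(2, ℤ)) : GL (Fin 2) ℝ) ⟨_, rfl⟩) rhoPt
  rw [← ModularForm.SL_slash, ModularForm.SL_slash_apply] at h
  have hne : (rhoPt : ℂ) + 1 ≠ 0 := fun h0 => by
    have := congrArg Complex.im h0
    simp [rhoPt] at this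
  have hsq := rhoPt_sq
  have hfix : (ModularGroup.S * ModularGroup.T : SL(2, ℤ)) • rhoPt = rhoPt := by
    rw [mul_smul, modular_T_smul, modular_S_smul]
    ext1
    simp only [UpperHalfPlane.coe_vadd, Complex.ofReal_one]
    have h1 : (1 + (rhoPt : ℂ)) * (1 + (rhoPt : ℂ))⁻¹ = 1 :=
      mul_inv_cancel₀ (by rwa [add_comm])
    rw [inv_neg]
    linear_combination (rhoPt : ℂ) * h1 - (1 + (rhoPt : ℂ))⁻¹ * hsq
  rw [hfix] at h
  have hd : denom ((ModularGroup.S * ModularGroup.T : SL(2, ℤ)) : GL (Fin 2) ℝ) rhoPt =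
      (rhoPt : ℂ) + 1 := by
    rw [ModularGroup.denom_apply, Matrix.SpecialLinearGroup.coe_mul, Matrix.mul_apply,
      Matrix.mul_apply, Fin.sum_univ_two, Fin.sum_univ_two]
    simp [ModularGroup.S, ModularGroup.T]
  rw [hd] at h
  have h4 : ((rhoPt : ℂ) + 1) ^ (4 : ℕ) = (rhoPt : ℂ) ^ 2 := by
    linear_combination ((rhoPt : ℂ) ^ 2 + 3 * (rhoPt : ℂ) + 1) * hsq
  rw [zpow_neg, show ((rhoPt : ℂ) + 1) ^ (4 : ℤ) = ((rhoPt : ℂ) + 1) ^ (4 : ℕ) from
    zpow_natCast _ 4, h4] at h
  by_contra hne0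
  have hr0 : (rhoPt : ℂ) ≠ 0 := rhoPt.ne_zero
  field_simp at h
  have h1 : ((rhoPt : ℂ)) ^ 2 = 1 := h.symm
  have hr : (rhoPt : ℂ) = -2 := by linear_combination hsq - h1
  rw [hr] at h1
  norm_num at h1

/-- The period `Ω = E₆(ρ) / 216`. -/
def rhoPeriod : ℂ := E₆ rhoPt / 216

lemma delta_rhoPt : ModularForm.discriminant rhoPt = -27 * rhoPeriod ^ 2 := by
  rw [discriminant_eq_E₄_cube_sub_E₆_sq, E4_rhoPt, rhoPeriod]
  ring

lemma rhoPeriod_ne_zero : rhoPeriod ≠ 0 := fun h => discriminant_ne_zero rhoPt (by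
  rw [delta_rhoPt, h]; ring)

lemma E6_rhoPt : E₆ rhoPt = 216 * rhoPeriod := by rw [rhoPeriod]; ring

/-- Integral forms of weight `6 v` take values in `ℤ Ω ^ v` at `ρ`, compatibly with
divisibility. -/
lemma exists_value (M : ℤ) (v : ℕ) : ∀ {k : ℤ}, k = 6 * (v : ℤ) →
    ∀ (h : ModularForm 𝒮ℒ k) (P : PowerSeries ℤ), HasSer h P → (∀ n, M ∣ P.coeff n) →
      ∃ a : ℤ, M ∣ a ∧ h rhoPt = (a : ℂ) * rhoPeriod ^ v := by
  induction v using Nat.strong_induction_on with
  | _ v ih =>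
    intro k hk h P hP hall
    obtain ⟨h', P', hP', hdec, hval⟩ := exists_div_delta hk h hP
    have hall' : ∀ m, M ∣ P'.coeff m := by
      intro m
      induction m using Nat.strong_induction_on with
      | _ m ihm =>
        have h1 := hall (m + 1)
        rw [hdec, map_add, PowerSeries.coeff_C_mul, deltaSer_eq_X_mul, mul_assoc,
          PowerSeries.coeff_succ_X_mul, PowerSeries.coeff_mul] at h1
        have h2 := (dvd_add_right ((hall 0).mul_right _)).mp h1
        rw [← Finset.add_sum_erase _ _ (show (0, m) ∈ antidiagonal m by simp)] at h2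
        have h3 : M ∣ ∑ ij ∈ (antidiagonal m).erase (0, m),
            deltaUnit.coeff ij.1 * P'.coeff ij.2 := by
          refine Finset.dvd_sum fun ij hij => (ihm ij.2 ?_).mul_left _
          obtain ⟨hne, hmem⟩ := Finset.mem_erase.mp hij
          have heq := Finset.HasAntidiagonal.mem_antidiagonal.mp hmem
          have : ij.1 ≠ 0 := fun h0 => hne (Prod.ext h0 (by omega))
          omega
        have h4 := (dvd_add_left h3).mp h2
        rwa [show deltaUnit.coeff 0 = 1 by simp [deltaUnit, coeff_one_deltaSer], one_mul] at h4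
    rcases lt_or_ge v 2 with hv | hv
    · refine ⟨P.coeff 0 * 216 ^ v, (hall 0).mul_right _, ?_⟩
      have h0 : h' rhoPt = 0 := by rw [eq_zero_of_neg (by omega) h']; rfl
      rw [hval, h0, E6_rhoPt, mul_pow]
      push_cast
      ring
    · obtain ⟨a, ha, haeq⟩ := ih (v - 2) (by omega) (k := k - 12) (by omega) h' P' hP' hall'
      refine ⟨P.coeff 0 * 216 ^ v + -27 * a, dvd_add ((hall 0).mul_right _) (ha.mul_left _), ?_⟩
      rw [hval, haeq, E6_rhoPt, delta_rhoPt, mul_pow]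
      push_cast
      obtain ⟨w, rfl⟩ : ∃ w, v = w + 2 := ⟨v - 2, by omega⟩
      simp only [Nat.add_sub_cancel]
      ring

/-- Integral weight two forms of level one vanish. -/
lemma eq_zero_of_weight_two (h : ModularForm 𝒮ℒ 2) : (h : ℍ → ℂ) = 0 := by
  rw [rank_zero_iff_forall_zero.mp levelOne_weight_two_rank_zero h]
  rfl

end FermatAgent.Eisenstein

end
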