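import Mathlib
import Fermat.Agent.Eisenstein.Expansion
import Fermat.Agent.Eisenstein.LevelOne

/-!
Old forms and the weight two Eisenstein series of prime level.
-/

set_option autoImplicit false

noncomputable section

open UpperHalfPlane CongruenceSubgroup ModularGroup Finset
open scoped MatrixGroups ModularForm Manifold ArithmeticFunction.sigma

namespace FermatAgent.Eisenstein

variable {p : ℕ} [NeZero p]

lemma mdifferentiable_comp_scalePt {f : ℍ → ℂ} (hf : MDiff f) :
    MDiff (fun z => f (scalePt p z)) := by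
  rw [UpperHalfPlane.mdifferentiable_iff] at hf ⊢
  have hmaps : Set.MapsTo (fun z : ℂ => (p : ℂ) * z) {z : ℂ | 0 < z.im} {z : ℂ | 0 < z.im} :=
    fun z hz => by simpa using mul_pos (pos_of_neZero p) hz
  refine (hf.comp (differentiable_id.const_mul (p : ℂ)).differentiableOn hmaps).congr fun z hz => ?_
  simp only [Function.comp_apply, ofComplex_apply_of_im_pos hz,
    ofComplex_apply_of_im_pos (hmaps hz)]
  rfl

lemma S_smul_scalePt (z : ℍ) : S • scalePt p z = negInvPt p z := by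
  ext1
  rw [modular_S_smul]
  simp [inv_neg]

lemma scalePt_negInvPt (z : ℍ) : scalePt p (negInvPt p z) = S • z := by
  ext1
  rw [modular_S_smul]
  have hp : (p : ℂ) ≠ 0 := by exact_mod_cast NeZero.ne p
  simp [inv_neg]
  field_simp

lemma exists_conj_Gamma0 {γ : SL(2, ℤ)} (hγ : γ ∈ Gamma0 p) :
    ∃ γ' : SL(2, ℤ), (γ' 1 0) * (p : ℤ) = γ 1 0 ∧ (p : ℤ) ∣ γ' 0 1 ∧
      ∀ z : ℍ, scalePt p (γ • z) = γ' • scalePt p z ∧
        denom (γ' : GL (Fin 2) ℝ) (scalePt p z : ℂ) = denom (γ : GL (Fin 2) ℝ) (z : ℂ) := by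
  obtain ⟨c, hc⟩ : (p : ℤ) ∣ γ 1 0 := (ZMod.intCast_zmod_eq_zero_iff_dvd _ _).mp (Gamma0_mem.mp hγ)
  have hdet := Matrix.SpecialLinearGroup.det_coe γ
  rw [Matrix.det_fin_two, hc] at hdet
  let δ : SL(2, ℤ) := ⟨!![γ 0 0, p * γ 0 1; c, γ 1 1], by
    rw [Matrix.det_fin_two_of]; linear_combination hdet⟩
  have e00 : δ 0 0 = γ 0 0 := rfl
  have e01 : δ 0 1 = p * γ 0 1 := rfl
  have e10 : δ 1 0 = c := rfl
  have e11 : δ 1 1 = γ 1 1 := rfl
  refine ⟨δ, by rw [e10, hc, mul_comm], e01 ▸ dvd_mul_right _ _, fun z => ?_⟩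
  have hd : ((γ 1 0 : ℤ) : ℂ) = (p : ℂ) * c := by rw [hc]; push_cast; ring
  refine ⟨?_, ?_⟩
  · ext1
    rw [coe_scalePt, UpperHalfPlane.coe_specialLinearGroup_apply,
      UpperHalfPlane.coe_specialLinearGroup_apply, e00, e01, e10, e11]
    simp [hd]
    ring
  · rw [ModularGroup.denom_apply, ModularGroup.denom_apply, e10, e11, coe_scalePt, hd]
    ring

/-- A level one form, seen at level `p`. -/
lemma hasExp_levelOne {k : ℕ} (A : ModularForm 𝒮ℒ (k : ℤ)) {P : PowerSeries ℤ}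
    (hA : HasSer A P) : HasExp p k A P (PowerSeries.C ((p : ℤ) ^ k) * dilate p P) where
  inv γ _ := by
    rw [ModularForm.SL_slash]
    exact SlashInvariantFormClass.slash_action_eq A _ ⟨γ, rfl⟩
  holo := A.holo'
  ser := hA
  serStar := ((hA.comp_scalePt p).const_mul ((p : ℤ) ^ k)).congr_fun' fun z => by
    rw [starFun_eq_slash, ModularForm.SL_slash,
      SlashInvariantFormClass.slash_action_eq (Γ := 𝒮ℒ) A ((S : SL(2, ℤ)) : GL (Fin 2) ℝ) ⟨S, rfl⟩]
    push_cast
    rfl

/-- The old form `A (p z)`. -/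
lemma hasExp_scaled {k : ℕ} (A : ModularForm 𝒮ℒ (k : ℤ)) {P : PowerSeries ℤ} (hA : HasSer A P) :
    HasExp p k (fun z => A (scalePt p z)) (dilate p P) P where
  inv γ hγ := by
    obtain ⟨γ', -, -, h⟩ := exists_conj_Gamma0 hγ
    funext z
    obtain ⟨h1, h2⟩ := h z
    have h3 := congrFun (SlashInvariantFormClass.slash_action_eq A
      ((γ' : GL (Fin 2) ℝ)) ⟨γ', rfl⟩) (scalePt p z)
    rw [← ModularForm.SL_slash, ModularForm.SL_slash_apply, h2, ← h1] at h3
    rw [ModularForm.SL_slash_apply]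
    exact h3
  holo := mdifferentiable_comp_scalePt A.holo'
  ser := hA.comp_scalePt p
  serStar := hA.congr_fun' fun z => by
    have h := congrFun (SlashInvariantFormClass.slash_action_eq A
      ((S : SL(2, ℤ)) : GL (Fin 2) ℝ) ⟨S, rfl⟩) z
    rw [← ModularForm.SL_slash, slash_S_apply_eq] at h
    show ((z : ℂ) ^ k)⁻¹ * A (scalePt p (negInvPt p z)) = A z
    rw [scalePt_negInvPt]
    exact h

/-- The expansion of `E₂`. -/
def e2Ser : PowerSeries ℤ := PowerSeries.mk fun n => if n = 0 then 1 else -24 * (σ 1 n : ℤ)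

lemma hasSer_E2 : HasSer EisensteinSeries.E2 e2Ser := fun z => by
  refine (EisensteinSeries.hasSum_qExpansion_E2 (z := z)).congr_fun fun n => ?_
  rw [smul_eq_mul, e2Ser, PowerSeries.coeff_mk]
  congr 1
  · split <;> simp
  · simp [Function.Periodic.qParam]

/-- `24` times the Eisenstein series of weight two and level `p`. -/
def eisFun (p : ℕ) [NeZero p] : ℍ → ℂ :=
  fun z => (p : ℂ) * EisensteinSeries.E2 (scalePt p z) - EisensteinSeries.E2 z

/-- The expansion of `eisFun p`. -/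
def eisSer (p : ℕ) [NeZero p] : PowerSeries ℤ :=
  PowerSeries.C (p : ℤ) * dilate p e2Ser - e2Ser

lemma hasSer_eisFun : HasSer (eisFun p) (eisSer p) :=
  (((hasSer_E2.comp_scalePt p).const_mul (p : ℤ)).sub hasSer_E2).congr_fun' fun z => by
    simp [eisFun]

lemma starFun_eisFun (z : ℍ) : starFun p 2 (eisFun p) z = -(p : ℂ) * eisFun p z := by
  have hE : ∀ w : ℍ, ((w : ℂ) ^ 2)⁻¹ * EisensteinSeries.E2 (S • w) =
      EisensteinSeries.E2 w - 1 / (2 * riemannZeta 2) * (2 * Real.pi * Complex.I / w) := by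
    intro w
    have h := congrFun (EisensteinSeries.E2_slash_action S) w
    rw [ModularForm.SL_slash_apply, denom_S] at h
    simp only [Pi.sub_apply, Pi.smul_apply, smul_eq_mul, EisensteinSeries.D2_S] at h
    rw [← h, zpow_neg]
    norm_num
    ring
  have h1 := hE z
  have h2 := hE (scalePt p z)
  rw [S_smul_scalePt, coe_scalePt] at h2
  have hp : (p : ℂ) ≠ 0 := by exact_mod_cast NeZero.ne p
  have hz : (z : ℂ) ≠ 0 := z.ne_zero
  show ((z : ℂ) ^ 2)⁻¹ * ((p : ℂ) * EisensteinSeries.E2 (scalePt p (negInvPt p z)) -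
    EisensteinSeries.E2 (negInvPt p z)) = _
  rw [scalePt_negInvPt, eisFun]
  generalize EisensteinSeries.E2 (S • z) = a at h1
  generalize EisensteinSeries.E2 (negInvPt p z) = b at h2
  generalize EisensteinSeries.E2 (scalePt p z) = d at h2
  generalize EisensteinSeries.E2 z = e at h1
  generalize 1 / (2 * riemannZeta 2) * (2 * Real.pi * Complex.I) = κ at *
  rw [mul_div_assoc'] at h1 h2
  field_simp at h1 h2 ⊢
  linear_combination (p : ℂ) * h1 - h2

lemma hasExp_eisFun : HasExp p 2 (eisFun p) (eisSer p) (PowerSeries.C (-(p : ℤ)) * eisSer p) where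
  inv γ hγ := by
    obtain ⟨γ', hc, -, h⟩ := exists_conj_Gamma0 hγ
    funext z
    obtain ⟨h1, h2⟩ := h z
    have e1 := congrFun (EisensteinSeries.E2_slash_action γ') (scalePt p z)
    have e2 := congrFun (EisensteinSeries.E2_slash_action γ) z
    rw [ModularForm.SL_slash_apply] at e1 e2 ⊢
    simp only [Pi.sub_apply, Pi.smul_apply, smul_eq_mul, EisensteinSeries.D2, h2, ← h1] at e1 e2
    simp only [eisFun, Nat.cast_ofNat]
    have hc' : ((γ' 1 0 : ℤ) : ℂ) * (p : ℂ) = ((γ 1 0 : ℤ) : ℂ) := by exact_mod_cast hc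
    linear_combination (p : ℂ) * e1 - e2 -
      (1 / (2 * riemannZeta 2)) * (2 * (Real.pi : ℂ) * Complex.I) /
        denom (γ : GL (Fin 2) ℝ) (z : ℂ) * hc'
  holo := by
    refine MDifferentiable.sub ?_ E2_mdifferentiable
    exact (mdifferentiable_comp_scalePt E2_mdifferentiable).const_smul (p : ℂ)
  ser := hasSer_eisFun
  serStar := (hasSer_eisFun.const_mul (-(p : ℤ))).congr_fun' fun z => by
    rw [starFun_eisFun]
    push_cast
    ring

end FermatAgent.Eisenstein

end
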