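import Mathlib
import Fermat.Agent.Eisenstein.Forms

/-!
Algebra of `dilate` and `contract`, and rescaling of functions with integral expansions.
-/

set_option autoImplicit false

noncomputable section

open UpperHalfPlane Finset
open scoped MatrixGroups ModularForm Manifold ArithmeticFunction.sigma

namespace FermatAgent.Eisenstein

variable {p : ℕ} [NeZero p]

lemma dilate_eq_expand (P : PowerSeries ℤ) :
    dilate p P = PowerSeries.expand p (NeZero.ne p) P := by
  ext n
  rw [coeff_dilate, PowerSeries.coeff_expand]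

@[simp] lemma dilate_pow (P : PowerSeries ℤ) (n : ℕ) : dilate p (P ^ n) = dilate p P ^ n := by
  simp [dilate_eq_expand]

omit [NeZero p] in
lemma contract_sub (P Q : PowerSeries ℤ) : contract p (P - Q) = contract p P - contract p Q := by
  ext n; simp

omit [NeZero p] in
lemma contract_C_mul (a : ℤ) (P : PowerSeries ℤ) :
    contract p (PowerSeries.C a * P) = PowerSeries.C a * contract p P := by
  ext n; rw [coeff_contract, PowerSeries.coeff_C_mul, PowerSeries.coeff_C_mul, coeff_contract]

@[simp] lemma contract_dilate (P : PowerSeries ℤ) : contract p (dilate p P) = P := by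
  ext n
  simp [Nat.pos_of_ne_zero (NeZero.ne p)]

/-- Divisibility of a series by an integer, coefficientwise. -/
lemma C_dvd_iff {M : ℤ} {P : PowerSeries ℤ} :
    PowerSeries.C M ∣ P ↔ ∀ n, M ∣ P.coeff n := by
  refine ⟨?_, fun h => ?_⟩
  · rintro ⟨R, rfl⟩ n
    rw [PowerSeries.coeff_C_mul]
    exact dvd_mul_right _ _
  · choose r hr using h
    exact ⟨PowerSeries.mk r, PowerSeries.ext fun n => by rw [PowerSeries.coeff_C_mul,
      PowerSeries.coeff_mk, ← hr]⟩

/-- Divide a function with divisible expansions by a nonzero integer. -/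
lemma HasExp.div_const {k : ℕ} {f : ℍ → ℂ} {P Q : PowerSeries ℤ} {a : ℤ} (ha : a ≠ 0)
    (hf : HasExp p k f (PowerSeries.C a * P) (PowerSeries.C a * Q)) :
    HasExp p k (fun z => (a : ℂ)⁻¹ * f z) P Q := by
  have ha' : (a : ℂ) ≠ 0 := Int.cast_ne_zero.mpr ha
  have key : ∀ {g : ℍ → ℂ} {R : PowerSeries ℤ}, HasSer g (PowerSeries.C a * R) →
      HasSer (fun z => (a : ℂ)⁻¹ * g z) R := by
    intro g R h z
    refine ((h z).mul_left (a : ℂ)⁻¹).congr_fun fun n => ?_
    rw [PowerSeries.coeff_C_mul, Int.cast_mul]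
    field_simp
  refine ⟨fun γ hγ => ?_, ?_, key hf.ser, (key hf.serStar).congr_fun' fun z => ?_⟩
  · rw [show (fun z => (a : ℂ)⁻¹ * f z) = (a : ℂ)⁻¹ • f from rfl, ModularForm.SL_smul_slash,
      hf.inv γ hγ]
  · rw [show (fun z => (a : ℂ)⁻¹ * f z) = (a : ℂ)⁻¹ • f from rfl]
    exact hf.holo.const_smul _
  · simp only [starFun]
    ring

lemma coeff_dilate_of_lt {P : PowerSeries ℤ} {n : ℕ} (hn : n < p) (hn0 : n ≠ 0) :
    (dilate p P).coeff n = 0 := by
  rw [coeff_dilate, if_neg]
  exact fun h => hn0 (Nat.eq_zero_of_dvd_of_lt h hn)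

end FermatAgent.Eisenstein

end
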