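import Mathlib
import Fermat.Agent.Eisenstein.SeriesCalc

/-!
Cusp forms of weight two and prime level: the expansion at the cusp `0`.
-/

set_option autoImplicit false

noncomputable section

open UpperHalfPlane CongruenceSubgroup ModularGroup Finset Filter
open scoped MatrixGroups ModularForm Manifold

namespace FermatAgent.Eisenstein

variable {p : ℕ} [NeZero p]

lemma negInvPt_negInvPt (z : ℍ) : negInvPt p (negInvPt p z) = z := by
  ext1
  have hp : (p : ℂ) ≠ 0 := by exact_mod_cast NeZero.ne p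
  have hz : (z : ℂ) ≠ 0 := z.ne_zero
  simp only [coe_negInvPt]
  field_simp

lemma tendsto_scalePt : Tendsto (scalePt p) atImInfty atImInfty := by
  refine tendsto_comap_iff.mpr ?_
  have h := Tendsto.const_mul_atTop (pos_of_neZero p)
    (tendsto_comap : Tendsto UpperHalfPlane.im atImInfty atTop)
  refine h.congr fun z => ?_
  simp [Function.comp_apply, ← UpperHalfPlane.coe_im]

lemma mdifferentiable_negInvPt_slash {f : ℍ → ℂ} (hf : MDiff f) (k : ℕ) :
    MDiff (starFun p k f) := by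
  rw [show starFun p k f = (p : ℂ) ^ k • fun z => (f ∣[(k : ℤ)] S) (scalePt p z) from
    funext fun z => starFun_eq_slash p k f z]
  exact (mdifferentiable_comp_scalePt (hf.slash (k : ℤ) _)).const_smul _

lemma starFun_inv {f : ℍ → ℂ} {k : ℕ} (hinv : ∀ γ ∈ Gamma0 p, f ∣[(k : ℤ)] γ = f) :
    ∀ γ ∈ Gamma0 p, starFun p k f ∣[(k : ℤ)] γ = starFun p k f := by
  intro γ hγ
  obtain ⟨γ', -, ⟨b, hb⟩, h⟩ := exists_conj_Gamma0 hγ
  funext z
  obtain ⟨h1, h2⟩ := h z
  have key : f ∣[(k : ℤ)] (S * γ') = f ∣[(k : ℤ)] S := by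
    refine slash_eq_of_row hinv ?_
    simp only [Matrix.SpecialLinearGroup.coe_mul, Matrix.mul_apply, Fin.sum_univ_two]
    simp [S, hb]
  have h3 := congrFun key (scalePt p z)
  rw [SlashAction.slash_mul, ModularForm.SL_slash_apply, h2, ← h1] at h3
  rw [ModularForm.SL_slash_apply, starFun_eq_slash, starFun_eq_slash]
  linear_combination (p : ℂ) ^ k * h3

lemma starFun_starFun (k : ℕ) (hk : Even k) (f : ℍ → ℂ) (z : ℍ) :
    starFun p k (starFun p k f) z = (p : ℂ) ^ k * f z := by
  simp only [starFun, negInvPt_negInvPt, coe_negInvPt]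
  have hp : (p : ℂ) ≠ 0 := by exact_mod_cast NeZero.ne p
  have hz : (z : ℂ) ≠ 0 := z.ne_zero
  rw [hk.neg_pow, inv_pow, inv_inv, mul_pow]
  field_simp

variable [hp : Fact p.Prime]

/-- The expansion of a weight two cusp form at `0`. -/
lemma hasExp_cuspForm (φ : CuspForm (Gamma0 p : Subgroup (GL (Fin 2) ℝ)) 2) {P : PowerSeries ℤ}
    (hP : HasSer φ P) :
    HasExp p 2 φ P (PowerSeries.C (-(p : ℤ)) * contract p P) := by
  have hinv : ∀ γ ∈ Gamma0 p, (φ : ℍ → ℂ) ∣[((2 : ℕ) : ℤ)] γ = φ := fun γ hγ => by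
    rw [ModularForm.SL_slash]
    exact SlashInvariantFormClass.slash_action_eq φ _ ⟨γ, hγ, rfl⟩
  have hholo : MDiff (φ : ℍ → ℂ) := φ.holo'
  refine ⟨hinv, hholo, hP, ?_⟩
  rw [show PowerSeries.C (-(p : ℤ)) * contract p P =
    PowerSeries.C (-1) * (PowerSeries.C (p : ℤ) * contract p P) by
      rw [← mul_assoc, ← map_mul, neg_one_mul]]
  refine ((hP.sum_shiftPt p).const_mul (-1)).congr_fun' fun z => ?_
  set g := starFun p 2 (φ : ℍ → ℂ) with hg
  have hginv := starFun_inv (p := p) hinv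
  have hgholo : MDiff g := mdifferentiable_negInvPt_slash hholo 2
  have hsum : ∀ w : ℍ, ∑ j ∈ range p, starFun p 2 g (shiftPt p j w) =
      (p : ℂ) ^ 2 * ∑ j ∈ range p, φ (shiftPt p j w) := fun w => by
    rw [mul_sum]
    exact sum_congr rfl fun j _ => starFun_starFun 2 even_two _ _
  have hbdd : IsBoundedAtImInfty (traceFun p 2 g) := by
    have h1 : IsBoundedAtImInfty g := by
      have h0 : IsBoundedAtImInfty ((φ : ℍ → ℂ) ∣[(2 : ℤ)] S) :=
        ModularFormClass.bdd_at_infty_slash φ S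
      have h2 := (h0.comp_tendsto (tendsto_scalePt (p := p))).const_mul_left ((p : ℂ) ^ 2)
      refine h2.congr' (Eventually.of_forall fun w => ?_) EventuallyEq.rfl
      exact (starFun_eq_slash p 2 φ w).symm
    have h2 := ((hP.sum_shiftPt p).const_mul ((p : ℤ) ^ 2)).isBoundedAtImInfty
    have h3 := (h1.const_mul_left ((p : ℂ) ^ 2)).add h2
    refine h3.congr' (Eventually.of_forall fun w => ?_) EventuallyEq.rfl
    simp [traceFun, hsum]
  have h0 := eq_zero_of_weight_two
    (ModularForm.mcast (by norm_num) (traceForm hginv hgholo hbdd))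
  have hz : traceFun p 2 g z = 0 := congrFun h0 z
  rw [traceFun, hsum, ← mul_add, mul_eq_zero] at hz
  have hne : (p : ℂ) ^ 2 ≠ 0 := pow_ne_zero _ (by exact_mod_cast hp.out.ne_zero)
  rw [eq_neg_of_add_eq_zero_left (hz.resolve_left hne)]
  push_cast
  ring

end FermatAgent.Eisenstein

end
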