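import Mathlib
import Fermat.Agent.Eisenstein.SeriesCalc

/-!
Forms of weight two and prime level which are constant modulo `M` at both cusps: consequences
of taking traces of products with `Δ(p z)` and `E₄(p z)`.
-/

set_option autoImplicit false

noncomputable section

open UpperHalfPlane Finset ModularForm EisensteinSeries
open scoped MatrixGroups ModularForm Manifold ArithmeticFunction.sigma

namespace FermatAgent.Eisenstein

variable {p : ℕ} [NeZero p]

/-- `G` is a weight two form of level `p` with expansions `c` and `-p c` modulo `(M, p M)`. -/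
def IsConstMod (p : ℕ) [NeZero p] (M c : ℤ) (G : ℍ → ℂ) : Prop :=
  ∃ R R' : PowerSeries ℤ, R.coeff 0 = 0 ∧ R'.coeff 0 = 0 ∧
    HasExp p 2 G (PowerSeries.C c + PowerSeries.C M * R)
      (PowerSeries.C (p : ℤ) * (PowerSeries.C M * R' - PowerSeries.C c))

/-- `Δ` as a modular form. -/
def deltaForm : ModularForm 𝒮ℒ ((12 : ℕ) : ℤ) :=
  ModularForm.mcast (by norm_num)
    ({ CuspForm.discriminant with
        toFun := ModularForm.discriminant
        bdd_at_cusps' := fun hc => ModularFormClass.bdd_at_cusps CuspForm.discriminant hc } :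
      ModularForm 𝒮ℒ 12)

lemma hasSer_deltaForm : HasSer deltaForm deltaSer :=
  hasSer_delta.congr_fun' fun _ => rfl

lemma series_eq_of_weight_six {h : ModularForm 𝒮ℒ ((6 : ℕ) : ℤ)} {P : PowerSeries ℤ}
    (hP : HasSer h P) : P = PowerSeries.C (P.coeff 0) * e6Ser := by
  obtain ⟨h', P', hP', hdec, -⟩ := exists_div_delta (v := 1) (by norm_num) h hP
  rw [eq_zero_of_neg (by norm_num) h'] at hP'
  rw [hP'.eq_zero, mul_zero, add_zero, pow_one] at hdec
  exact hdec

lemma series_eq_zero_of_weight_fourteen {h : ModularForm 𝒮ℒ ((14 : ℕ) : ℤ)} {P : PowerSeries ℤ}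
    (hP : HasSer h P) (h0 : P.coeff 0 = 0) : P = 0 := by
  have hcusp : (qExpansion 1 h).coeff 0 = 0 := by
    rw [hP.qExpansion_eq one_mem_strictPeriods_SL, PowerSeries.coeff_map, h0, map_zero]
  have h2 : (CuspForm.discriminantEquiv (toCuspForm h hcusp) : ℍ → ℂ) = 0 := by
    funext z
    have := eq_zero_of_weight_two
      (ModularForm.mcast (by norm_num) (CuspForm.discriminantEquiv (toCuspForm h hcusp)))
    exact congrFun this z
  have : (h : ℍ → ℂ) = 0 := by
    funext z
    have hz := discriminant_mul_discriminantEquiv_apply (toCuspForm h hcusp) z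
    rw [congrFun h2 z, Pi.zero_apply, mul_zero] at hz
    simpa using hz.symm
  rw [this] at hP
  exact hP.eq_zero

lemma coeff_dilate_self (P : PowerSeries ℤ) : (dilate p P).coeff p = P.coeff 1 := by
  rw [coeff_dilate, if_pos dvd_rfl, Nat.div_self (Nat.pos_of_ne_zero (NeZero.ne p))]

lemma dvd_of_eq_of_dvd {M x y : ℤ} (h : x = y) (hy : M ∣ y) : M ∣ x := h ▸ hy

variable [hp : Fact p.Prime]

/-- The relation `U_p Δ + p¹¹ Δ(p z) = τ(p) Δ`. -/
lemma tau_relation :
    (p : ℤ) * deltaSer.coeff (p * p) =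
      (p : ℤ) * deltaSer.coeff p * deltaSer.coeff p - (p : ℤ) ^ 12 := by
  obtain ⟨h, -, hh⟩ := (hasExp_scaled (p := p) deltaForm hasSer_deltaForm).exists_levelOne
  set P := PowerSeries.C ((p : ℤ) ^ 12) * dilate p deltaSer +
    PowerSeries.C (p : ℤ) * contract p deltaSer with hP
  set t : ℤ := (p : ℤ) * deltaSer.coeff p with ht
  have hL : HasSer ⇑(h - (t : ℂ) • deltaForm) (P - PowerSeries.C t * deltaSer) :=
    (hh.sub (hasSer_deltaForm.const_mul t)).congr_fun' fun z => by simp
  have hp1 : 1 < p := hp.out.one_lt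
  have hall := dvd_coeff_of_low 0 2 (k := ((12 : ℕ) : ℤ)) (by norm_num) _ _ hL ?_ p
  · rw [zero_dvd_iff, map_sub, hP, map_add, PowerSeries.coeff_C_mul, PowerSeries.coeff_C_mul,
      PowerSeries.coeff_C_mul, coeff_contract] at hall
    have h1 : (dilate p deltaSer).coeff p = 1 := by
      rw [coeff_dilate_self, coeff_one_deltaSer]
    rw [h1, ht] at hall
    linear_combination hall
  · intro n hn
    rw [zero_dvd_iff, map_sub, hP, map_add, PowerSeries.coeff_C_mul, PowerSeries.coeff_C_mul,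
      PowerSeries.coeff_C_mul, coeff_contract]
    interval_cases n
    · simp
    · rw [coeff_dilate_of_lt hp1 one_ne_zero, mul_one, coeff_one_deltaSer, ht]
      ring

/-- `M ∣ p¹³ (p + 1) c`. -/
lemma dvd_mul_succ {M c : ℤ} {G : ℍ → ℂ} (hG : IsConstMod p M c G) :
    M ∣ (p : ℤ) ^ 13 * (p + 1) * c := by
  obtain ⟨R, R', hR, hR', hexp⟩ := hG
  obtain ⟨h, -, hh⟩ := (hexp.mul (hasExp_scaled (p := p) deltaForm hasSer_deltaForm)).exists_levelOne
  have hzero := series_eq_zero_of_weight_fourteen hh ?_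
  swap
  · rw [map_add, PowerSeries.coeff_C_mul, PowerSeries.coeff_C_mul, coeff_contract,
      PowerSeries.coeff_mul, PowerSeries.coeff_mul]
    simp
  set X := dilate p deltaSer with hX
  have hd : ∀ n, M ∣ c * ((p : ℤ) ^ 14 * X.coeff n - (p : ℤ) ^ 2 * deltaSer.coeff (p * n)) := by
    intro n
    refine ⟨-((p : ℤ) ^ 14 * (R * X).coeff n + (p : ℤ) ^ 2 * (R' * deltaSer).coeff (p * n)), ?_⟩
    have h1 := congrArg (PowerSeries.coeff n) hzero
    simp only [add_mul, sub_mul, mul_assoc, map_zero, map_add, map_sub, PowerSeries.coeff_C_mul,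
      coeff_contract] at h1
    linear_combination h1
  have hp1 : 1 < p := hp.out.one_lt
  have h1 := hd 1
  rw [hX, coeff_dilate_of_lt hp1 one_ne_zero, mul_one] at h1
  have hp2 := hd p
  have hXp : X.coeff p = 1 := by
    rw [hX, coeff_dilate_self, coeff_one_deltaSer]
  rw [hXp] at hp2
  have ht := tau_relation (p := p)
  have h3 := hp2.sub (h1.mul_right (deltaSer.coeff p))
  refine dvd_of_eq_of_dvd ?_ h3
  linear_combination c * (p : ℤ) * ht

lemma sigma_three_prime (q : ℕ) (hq : q.Prime) : σ 3 q = 1 + q ^ 3 := by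
  conv_lhs => rw [← pow_one q]
  rw [ArithmeticFunction.sigma_apply_prime_pow hq]
  simp [Finset.sum_range_succ]

/-- `p` does not divide `M`, when `p ≥ 5` and `p ∤ c`. -/
lemma not_prime_dvd {M c : ℤ} {G : ℍ → ℂ} (hG : IsConstMod p M c G) (hp5 : 5 ≤ p)
    (hc : ¬ (p : ℤ) ∣ c) : ¬ (p : ℤ) ∣ M := by
  intro hpM
  obtain ⟨R, R', hR, hR', hexp⟩ := hG
  obtain ⟨h, -, hh⟩ := (hexp.mul (hasExp_scaled (p := p) E₄ hasSer_E4)).exists_levelOne
  have h6 := series_eq_of_weight_six hh
  set X := dilate p e4Ser with hX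
  have key : ∀ n, ∀ {e : ℤ}, e6Ser.coeff n = e → (p : ℤ) ∣ c * (e - e4Ser.coeff (p * n)) := by
    intro n e he
    have h1 := congrArg (PowerSeries.coeff n) h6
    simp only [add_mul, sub_mul, mul_assoc, map_add, map_sub, PowerSeries.coeff_C_mul,
      coeff_contract, he] at h1
    have hx0 : X.coeff 0 = 1 := by simp [hX]
    have hRX : (R * X).coeff 0 = 0 := by rw [PowerSeries.coeff_mul]; simp [hR]
    have hR'X : (R' * e4Ser).coeff 0 = 0 := by rw [PowerSeries.coeff_mul]; simp [hR']
    rw [mul_zero, hx0, hRX, hR'X, coeff_zero_e4Ser] at h1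
    have hp2 : (p : ℤ) ^ 2 ≠ 0 := pow_ne_zero _ (by exact_mod_cast hp.out.ne_zero)
    have h2 : (p : ℤ) ^ 4 * (c * X.coeff n + M * (R * X).coeff n) +
        (M * (R' * e4Ser).coeff (p * n) - c * e4Ser.coeff (p * n)) =
        ((p : ℤ) ^ 4 * c - c) * e := by
      refine mul_left_cancel₀ hp2 ?_
      linear_combination h1
    obtain ⟨k, hk⟩ := hpM
    refine ⟨(p : ℤ) ^ 3 * c * e - (p : ℤ) ^ 3 * (c * X.coeff n + M * (R * X).coeff n)
      - k * (R' * e4Ser).coeff (p * n), ?_⟩
    rw [hk] at h2 ⊢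
    linear_combination h2
  have hpp : Prime (p : ℤ) := Nat.prime_iff_prime_int.mp hp.out
  have h1 := (hpp.dvd_or_dvd (key 1 (e := -504) (by simp [e6Ser]))).resolve_left hc
  have h2 := (hpp.dvd_or_dvd (key 2 (e := -504 * 33) (by
    simp [e6Ser, ArithmeticFunction.sigma_apply, Nat.prime_two.divisors]))).resolve_left hc
  have hσ : σ 3 (p * 2) = (1 + p ^ 3) * 9 := by
    rw [ArithmeticFunction.isMultiplicative_sigma.map_mul_of_coprime
      ((Nat.coprime_primes hp.out Nat.prime_two).mpr (by omega)), sigma_three_prime p hp.out,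
      sigma_three_prime 2 Nat.prime_two]
    norm_num
  simp only [e4Ser, PowerSeries.coeff_mk, mul_one, hp.out.ne_zero, if_false,
    mul_eq_zero, OfNat.ofNat_ne_zero, or_self, hσ, sigma_three_prime p hp.out] at h1 h2
  push_cast at h1 h2
  have hcube : (p : ℤ) ∣ (p : ℤ) ^ 3 := dvd_pow_self _ (by norm_num)
  have e1 : (p : ℤ) ∣ 744 := by
    have := h1.add (hcube.mul_left 240)
    have := this.neg_right
    refine dvd_of_eq_of_dvd ?_ this
    ring
  have e2 : (p : ℤ) ∣ 18792 := by
    have := (h2.add (hcube.mul_left (240 * 9))).neg_right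
    refine dvd_of_eq_of_dvd ?_ this
    ring
  have : (p : ℤ) ∣ 24 := by
    have := (e2.mul_left 4).sub (e1.mul_left 101)
    norm_num at this
    exact this
  have : p ∣ 24 := by exact_mod_cast this
  have hle := Nat.le_of_dvd (by norm_num) this
  have hprime := hp.out
  clear_value X
  have : p = 6 ∨ p = 8 ∨ p = 12 ∨ p = 24 := by
    have hmem : p ∈ Nat.divisors 24 := Nat.mem_divisors.mpr ⟨this, by norm_num⟩
    have h24 : Nat.divisors 24 = {1, 2, 3, 4, 6, 8, 12, 24} := by decide
    rw [h24] at hmem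
    simp at hmem
    omega
  rcases this with e | e | e | e <;> (rw [e] at hprime) <;> norm_num at hprime

end FermatAgent.Eisenstein

end
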