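import Mathlib
import Fermat.Agent.Eisenstein.ConstantTerm

/-!
A weight two form of level `p ≡ 7 [8]` is not congruent to an odd constant modulo `8`
at both cusps: evaluation of traces at `ρ`.
-/

set_option autoImplicit false

noncomputable section

open UpperHalfPlane Finset ModularForm EisensteinSeries
open scoped MatrixGroups ModularForm Manifold ArithmeticFunction.sigma

namespace FermatAgent.Eisenstein

variable {p : ℕ} [NeZero p]

/-- The values at `ρ` of the terms of the scaled trace. -/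
def rhoVal (p : ℕ) [NeZero p] (k : ℕ) (f : ℍ → ℂ) : Option (Fin p) → ℂ
  | none => (p : ℂ) ^ k * f rhoPt
  | some j => starFun p k f (shiftPt p ((j : ℕ) : ℤ) rhoPt)

lemma sum_rhoVal (k : ℕ) (f : ℍ → ℂ) : ∑ i, rhoVal p k f i = traceFun p k f rhoPt := by
  rw [Fintype.sum_option, traceFun]
  exact congrArg _ (Fin.sum_univ_eq_sum_range
    (fun j => starFun p k f (shiftPt p ((j : ℕ) : ℤ) rhoPt)) p)

lemma rhoVal_mul (k k' : ℕ) (f g : ℍ → ℂ) (i : Option (Fin p)) :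
    rhoVal p (k + k') (f * g) i = rhoVal p k f i * rhoVal p k' g i := by
  cases i with
  | none => simp only [rhoVal, Pi.mul_apply, pow_add]; ring
  | some j => simp only [rhoVal, starFun, Pi.mul_apply, pow_add, mul_inv]; ring

lemma rhoVal_pow (k n : ℕ) (f : ℍ → ℂ) (i : Option (Fin p)) :
    rhoVal p (n * k) (f ^ n) i = rhoVal p k f i ^ n := by
  induction n with
  | zero =>
    cases i <;> simp [rhoVal, starFun]
  | succ n ih => rw [Nat.succ_mul, pow_succ, rhoVal_mul, ih, pow_succ]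

lemma rhoVal_add (k : ℕ) (f g : ℍ → ℂ) (i : Option (Fin p)) :
    rhoVal p k (f + g) i = rhoVal p k f i + rhoVal p k g i := by
  cases i <;> simp [rhoVal, starFun, mul_add]

lemma rhoVal_const_mul (k : ℕ) (a : ℂ) (f : ℍ → ℂ) (i : Option (Fin p)) :
    rhoVal p k (fun z => a * f z) i = a * rhoVal p k f i := by
  cases i <;> simp [rhoVal, starFun] <;> ring

lemma rhoVal_sub (k : ℕ) (f g : ℍ → ℂ) (i : Option (Fin p)) :
    rhoVal p k (f - g) i = rhoVal p k f i - rhoVal p k g i := by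
  cases i <;> simp [rhoVal, starFun, mul_sub]

lemma rhoVal_levelOne {k : ℕ} (A : ModularForm 𝒮ℒ (k : ℤ)) (i : Option (Fin p)) :
    rhoVal p k A i = (p : ℂ) ^ k * A rhoPt := by
  cases i with
  | none => rfl
  | some j =>
    have hS := SlashInvariantFormClass.slash_action_eq (Γ := 𝒮ℒ) A
      ((ModularGroup.S * ModularGroup.T ^ ((j : ℕ) : ℤ) : SL(2, ℤ)) : GL (Fin 2) ℝ) ⟨_, rfl⟩
    simp only [rhoVal]
    rw [starFun_shiftPt, ModularForm.SL_slash, hS]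

variable [hp : Fact p.Prime]

/-- Traces of forms with divisible expansions, evaluated at `ρ`. -/
lemma exists_sum_rhoVal {k v : ℕ} (hk : k = 6 * v) {f : ℍ → ℂ} {P Q : PowerSeries ℤ}
    (hf : HasExp p k f P Q) {M : ℤ} (hP : PowerSeries.C M ∣ P) (hQ : PowerSeries.C M ∣ Q) :
    ∃ a : ℤ, M ∣ a ∧ ∑ i, rhoVal p k f i = (a : ℂ) * rhoPeriod ^ v := by
  obtain ⟨h, hh, hser⟩ := hf.exists_levelOne
  obtain ⟨a, ha, haeq⟩ := exists_value M v (k := ((k : ℕ) : ℤ)) (by rw [hk]; push_cast; rfl) h _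
    hser (C_dvd_iff.mp (dvd_add (hP.mul_left _) (by
      obtain ⟨R, rfl⟩ := hQ
      exact ⟨PowerSeries.C (p : ℤ) * contract p R, by rw [contract_C_mul]; ring⟩)))
  exact ⟨a, ha, by rw [sum_rhoVal, ← hh, haeq]⟩

lemma two_pow_dvd_choose_mul (N r : ℕ) (hr : 1 ≤ r) :
    (2 : ℤ) ^ N ∣ ((2 ^ N).choose r : ℤ) * 2 ^ (4 * (r / 2)) := by
  obtain ⟨v, w, hw, hrw⟩ := Nat.exists_eq_pow_mul_and_not_dvd (show r ≠ 0 by omega) 2 (by norm_num)
  have hid : 2 ^ N * ((2 ^ N - 1).choose (r - 1)) = (2 ^ N).choose r * r := by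
    have h := Nat.add_one_mul_choose_eq (2 ^ N - 1) (r - 1)
    rwa [Nat.sub_add_cancel (Nat.one_le_two_pow), Nat.sub_add_cancel hr] at h
  have hwodd : Nat.Coprime (2 ^ N) w :=
    Nat.Coprime.pow_left _ ((Nat.prime_two.coprime_iff_not_dvd).mpr hw)
  have h2 : 2 ^ N ∣ (2 ^ N).choose r * 2 ^ v :=
    hwodd.dvd_of_dvd_mul_right ⟨(2 ^ N - 1).choose (r - 1), by rw [hid, hrw]; ring⟩
  have hv : v ≤ 4 * (r / 2) := by
    rcases Nat.eq_zero_or_pos v with h0 | h0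
    · omega
    · have h3 : v < 2 ^ v := Nat.lt_two_pow_self
      have h5 : 2 ^ v ≤ r := Nat.le_of_dvd (by omega) ⟨w, hrw⟩
      omega
  have h4 : 2 ^ N ∣ (2 ^ N).choose r * 2 ^ (4 * (r / 2)) :=
    h2.trans (Nat.mul_dvd_mul_left _ (pow_dvd_pow 2 hv))
  exact_mod_cast h4

lemma sigma_congr_two (n : ℕ) : (4 : ℤ) ∣ 15 * (σ 3 n : ℤ) + 21 * (σ 5 n : ℤ) := by
  obtain ⟨q, hq⟩ := twelve_dvd_sigma n
  exact ⟨9 * q, by linear_combination 3 * hq⟩

/-- The main statement. -/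
theorem not_const_mod_eight (hp8 : p % 8 = 7) {u : ℤ} (hu : ¬ (2 : ℤ) ∣ u) {G : ℍ → ℂ}
    {X Y : PowerSeries ℤ}
    (hG : HasExp p 2 G (PowerSeries.C u + PowerSeries.C 8 * X)
      (PowerSeries.C u + PowerSeries.C 8 * Y)) : False := by
  obtain ⟨a, ha⟩ : (8 : ℤ) ∣ (p : ℤ) - 7 := by omega
  -- `p⁴ = 1 + 32 b` and `p⁶ = 1 + 16 b'`
  have hb4 : (p : ℤ) ^ 4 = 1 + 32 * (128 * a ^ 4 + 448 * a ^ 3 + 588 * a ^ 2 + 343 * a + 75) := by
    rw [show (p : ℤ) = 8 * a + 7 by linarith]; ring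
  obtain ⟨b', hb6⟩ : ∃ b' : ℤ, (p : ℤ) ^ 6 = 1 + 16 * b' := by
    refine ⟨((p : ℤ) ^ 4 + (p : ℤ) ^ 2 + 1) * (4 * a ^ 2 + 7 * a + 3), ?_⟩
    rw [show (p : ℤ) = 8 * a + 7 by linarith]; ring
  generalize (128 * a ^ 4 + 448 * a ^ 3 + 588 * a ^ 2 + 343 * a + 75) = b at hb4
  obtain ⟨T, hT⟩ : ∃ T : PowerSeries ℤ,
      PowerSeries.C 4 * T = PowerSeries.C 15 * s3Ser + PowerSeries.C 21 * s5Ser := by
    obtain ⟨T, hT⟩ := (C_dvd_iff (M := 4)
      (P := PowerSeries.C 15 * s3Ser + PowerSeries.C 21 * s5Ser)).mpr fun n => by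
        rw [map_add, PowerSeries.coeff_C_mul, PowerSeries.coeff_C_mul, coeff_s3Ser, coeff_s5Ser]
        exact sigma_congr_two n
    exact ⟨T, hT.symm⟩
  have hT' := congrArg (dilate p) hT
  have hE4 := hasExp_levelOne (p := p) (k := 4) E₄ hasSer_E4
  have hE6 := hasExp_levelOne (p := p) (k := 6) E₆ hasSer_E6
  -- `K = G² - u² E₄` is divisible by `16`
  set K : ℍ → ℂ := G * G - fun z => ((u ^ 2 : ℤ) : ℂ) * E₄ z with hK
  obtain ⟨PK, QK, hKexp, hPK, hQK⟩ : ∃ PK QK, HasExp p 4 K PK QK ∧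
      PowerSeries.C 16 ∣ PK ∧ PowerSeries.C 16 ∣ QK := by
    refine ⟨_, _, (hG.mul hG).sub (hE4.const_mul (u ^ 2)),
      ⟨PowerSeries.C u * X + 4 * X ^ 2 - PowerSeries.C u ^ 2 * (15 * s3Ser), ?_⟩,
      ⟨PowerSeries.C u * Y + 4 * Y ^ 2 - PowerSeries.C u ^ 2 *
        (15 * dilate p s3Ser + 2 * PowerSeries.C b * dilate p e4Ser), ?_⟩⟩
    · rw [e4Ser_eq]
      simp only [map_pow, map_ofNat]
      ring
    · have hb := congrArg (PowerSeries.C (R := ℤ)) hb4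
      rw [e4Ser_eq]
      simp only [dilate_eq_expand, map_add, map_mul, map_pow, map_one, map_ofNat] at hb ⊢
      linear_combination (-(PowerSeries.C u) ^ 2 *
        (1 + 240 * PowerSeries.expand p (NeZero.ne p) s3Ser)) * hb
  -- `Z = G³ - 3 u² G E₄ + 2 u³ E₆` is divisible by `32`
  set Z : ℍ → ℂ := (G * G * G - fun z => ((3 * u ^ 2 : ℤ) : ℂ) * (G * E₄) z) +
    fun z => ((2 * u ^ 3 : ℤ) : ℂ) * E₆ z with hZ
  obtain ⟨PZ, QZ, hZexp, hPZ, hQZ⟩ : ∃ PZ QZ, HasExp p 6 Z PZ QZ ∧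
      PowerSeries.C 32 ∣ PZ ∧ PowerSeries.C 32 ∣ QZ := by
    refine ⟨_, _, (((hG.mul hG).mul hG).sub ((hG.mul hE4).const_mul (3 * u ^ 2))).add
        (hE6.const_mul (2 * u ^ 3)),
      ⟨6 * PowerSeries.C u * X ^ 2 + 16 * X ^ 3 - 180 * PowerSeries.C u ^ 2 * X * s3Ser -
        6 * PowerSeries.C u ^ 3 * T, ?_⟩,
      ⟨6 * PowerSeries.C u * Y ^ 2 + 16 * Y ^ 3 - 180 * PowerSeries.C u ^ 2 * Y * dilate p s3Ser -
        6 * PowerSeries.C u ^ 3 * dilate p T -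
        3 * PowerSeries.C u ^ 2 * (PowerSeries.C u + 8 * Y) * PowerSeries.C b * dilate p e4Ser +
        PowerSeries.C u ^ 3 * PowerSeries.C b' * dilate p e6Ser, ?_⟩⟩
    · rw [e4Ser_eq, e6Ser_eq]
      simp only [map_mul, map_pow, map_ofNat] at hT ⊢
      linear_combination (48 * PowerSeries.C u ^ 3) * hT
    · have hb := congrArg (PowerSeries.C (R := ℤ)) hb4
      have hb' := congrArg (PowerSeries.C (R := ℤ)) hb6
      rw [e4Ser_eq, e6Ser_eq]
      simp only [dilate_eq_expand, map_add, map_sub, map_mul, map_pow, map_one, map_ofNat]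
        at hT' hb hb' ⊢
      linear_combination (48 * PowerSeries.C u ^ 3) * hT' +
        (-3 * PowerSeries.C u ^ 2 * (PowerSeries.C u + 8 * Y) *
          (1 + 240 * PowerSeries.expand p (NeZero.ne p) s3Ser)) * hb +
        (2 * PowerSeries.C u ^ 3 * (1 - 504 * PowerSeries.expand p (NeZero.ne p) s5Ser)) * hb'
  set g : Option (Fin p) → ℂ := rhoVal p 2 G with hg
  set A : ℤ := 27 * u ^ 3 * (p : ℤ) ^ 6 with hA
  have hE4v : ∀ i, rhoVal p 4 (E₄ : ℍ → ℂ) i = 0 := fun i => by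
    rw [rhoVal_levelOne (k := 4) E₄ i, E4_rhoPt, mul_zero]
  have hKv : ∀ i, rhoVal p 4 K i = g i ^ 2 := fun i => by
    rw [hK, rhoVal_sub, rhoVal_mul 2 2, rhoVal_const_mul, hE4v, mul_zero, sub_zero, hg, sq]
  have hZv : ∀ i, rhoVal p 6 Z i = g i ^ 3 + ((16 * A : ℤ) : ℂ) * rhoPeriod := fun i => by
    rw [hZ, rhoVal_add, rhoVal_sub, rhoVal_const_mul, rhoVal_const_mul, rhoVal_mul 4 2,
      rhoVal_mul 2 2, rhoVal_mul 2 4 G E₄, hE4v, rhoVal_levelOne (k := 6) E₆ i, E6_rhoPt, hg, hA]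
    push_cast
    ring
  have hmom : ∀ r : ℕ, ∃ a : ℤ, (16 : ℤ) ^ (3 * r / 2) ∣ a ∧
      ∑ i, g i ^ (3 * r) = (a : ℂ) * rhoPeriod ^ r := by
    intro r
    rcases Nat.even_or_odd (3 * r) with ⟨t, ht⟩ | ⟨t, ht⟩
    · obtain ⟨a, ha, hsum⟩ := exists_sum_rhoVal (v := r) (by omega) (hKexp.pow t)
        (M := 16 ^ t) (by rw [map_pow]; exact pow_dvd_pow_of_dvd hPK t)
        (by rw [map_pow]; exact pow_dvd_pow_of_dvd hQK t)
      refine ⟨a, by rwa [show 3 * r / 2 = t by omega], ?_⟩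
      rw [← hsum]
      refine Finset.sum_congr rfl fun i _ => ?_
      rw [rhoVal_pow, hKv, ← pow_mul, show 2 * t = 3 * r by omega]
    · obtain ⟨a, ha, hsum⟩ := exists_sum_rhoVal (v := r) (by omega) (hG.mul (hKexp.pow t))
        (M := 16 ^ t) (by rw [map_pow]; exact (pow_dvd_pow_of_dvd hPK t).mul_left _)
        (by rw [map_pow]; exact (pow_dvd_pow_of_dvd hQK t).mul_left _)
      refine ⟨a, by rwa [show 3 * r / 2 = t by omega], ?_⟩
      rw [← hsum]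
      refine Finset.sum_congr rfl fun i _ => ?_
      rw [rhoVal_mul, rhoVal_pow, hKv, ← pow_mul, ← hg, ← pow_succ',
        show 2 * t + 1 = 3 * r by omega]
  choose M hMd hM using hmom
  obtain ⟨e, w, hw, hew⟩ := Nat.exists_eq_pow_mul_and_not_dvd (show p + 1 ≠ 0 by omega) 2
    (by norm_num)
  set N := e + 1 with hN
  set s := 2 ^ N with hs
  obtain ⟨z, hzd, hzsum⟩ := exists_sum_rhoVal (v := s) (by omega) (hZexp.pow s)
    (M := 32 ^ s) (by rw [map_pow]; exact pow_dvd_pow_of_dvd hPZ s)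
    (by rw [map_pow]; exact pow_dvd_pow_of_dvd hQZ s)
  have hΩ : rhoPeriod ^ s ≠ 0 := pow_ne_zero _ rhoPeriod_ne_zero
  have hexp : z = ∑ r ∈ range (s + 1), M r * (16 * A) ^ (s - r) * (s.choose r : ℤ) := by
    have h1 : (z : ℂ) * rhoPeriod ^ s =
        ((∑ r ∈ range (s + 1), M r * (16 * A) ^ (s - r) * (s.choose r : ℤ) : ℤ) : ℂ) *
          rhoPeriod ^ s := by
      rw [← hzsum]
      simp only [rhoVal_pow, hZv, add_pow, ← pow_mul]
      rw [Finset.sum_comm]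
      push_cast
      rw [Finset.sum_mul]
      refine Finset.sum_congr rfl fun r hr => ?_
      have hrs : r ≤ s := Nat.lt_succ_iff.mp (Finset.mem_range.mp hr)
      rw [← Finset.sum_mul, ← Finset.sum_mul, hM r]
      conv_rhs => rw [show rhoPeriod ^ s = rhoPeriod ^ r * rhoPeriod ^ (s - r) by
        rw [← pow_add, Nat.add_sub_cancel' hrs]]
      ring
    exact_mod_cast mul_right_cancel₀ hΩ h1
  have hM0 : M 0 = (p : ℤ) + 1 := by
    have h := hM 0
    simp only [mul_zero, pow_zero, Finset.sum_const, Finset.card_univ, Fintype.card_option,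
      Fintype.card_fin, nsmul_eq_mul, mul_one] at h
    have h' : ((p + 1 : ℕ) : ℂ) = ((M 0 : ℤ) : ℂ) := h
    exact_mod_cast h'.symm
  set D : ℤ := (2 : ℤ) ^ (4 * s + e + 1) with hD
  have hs1 : e + 1 ≤ s := (Nat.lt_two_pow_self).le
  have hz' : D ∣ z := by
    refine dvd_trans ?_ hzd
    rw [show (32 : ℤ) ^ s = 2 ^ (5 * s) by rw [pow_mul]; norm_num, hD]
    exact pow_dvd_pow 2 (by omega)
  have hterms : ∀ r ∈ range (s + 1), r ≠ 0 →
      D ∣ M r * (16 * A) ^ (s - r) * (s.choose r : ℤ) := by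
    intro r hr hr0
    have hrs : r ≤ s := Nat.lt_succ_iff.mp (Finset.mem_range.mp hr)
    have h1 := two_pow_dvd_choose_mul N r (by omega)
    rw [← hs] at h1
    obtain ⟨a1, ha1⟩ := hMd r
    obtain ⟨a2, ha2⟩ := h1
    refine ⟨a1 * a2 * A ^ (s - r), ?_⟩
    have e1 : (16 : ℤ) ^ (3 * r / 2) = 2 ^ (4 * r) * 2 ^ (4 * (r / 2)) := by
      rw [show (16 : ℤ) = 2 ^ 4 by norm_num, ← pow_mul, ← pow_add]
      congr 1
      omega
    have e2 : D = 2 ^ (4 * r) * 2 ^ N * 16 ^ (s - r) := by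
      rw [hD, show (16 : ℤ) = 2 ^ 4 by norm_num, ← pow_mul, ← pow_add, ← pow_add]
      congr 1
      omega
    rw [ha1, e1, e2, mul_pow]
    linear_combination (2 ^ (4 * r) * a1 * A ^ (s - r) * 16 ^ (s - r)) * ha2
  rw [hexp, ← Finset.add_sum_erase _ _ (show (0 : ℕ) ∈ range (s + 1) by simp)] at hz'
  have hsum : D ∣ ∑ r ∈ (range (s + 1)).erase 0, M r * (16 * A) ^ (s - r) * (s.choose r : ℤ) :=
    Finset.dvd_sum fun r hr => hterms r (Finset.mem_of_mem_erase hr) (Finset.ne_of_mem_erase hr)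
  have hmain := (dvd_add_left hsum).mp hz'
  rw [hM0, Nat.sub_zero, Nat.choose_zero_right, Nat.cast_one, mul_one,
    show ((p : ℤ) + 1) = 2 ^ e * (w : ℤ) by exact_mod_cast hew, hD] at hmain
  have h2 : (2 : ℤ) ^ (4 * s + e) * 2 ∣ 2 ^ (4 * s + e) * ((w : ℤ) * A ^ s) := by
    rw [← pow_succ]
    refine dvd_of_eq_of_dvd ?_ hmain
    have e16 : (16 : ℤ) ^ s = 2 ^ (4 * s) := by rw [pow_mul]; norm_num
    clear_value A
    rw [mul_pow, e16, pow_add]
    ring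
  have h3 := (mul_dvd_mul_iff_left (pow_ne_zero _ (by norm_num : (2 : ℤ) ≠ 0))).mp h2
  rcases Int.prime_two.dvd_or_dvd h3 with h4 | h4
  · exact hw (by exact_mod_cast h4)
  · have h5 := Int.prime_two.dvd_of_dvd_pow h4
    rw [hA] at h5
    rcases Int.prime_two.dvd_or_dvd h5 with h6 | h6
    · rcases Int.prime_two.dvd_or_dvd h6 with h7 | h7
      · norm_num at h7
      · exact hu (Int.prime_two.dvd_of_dvd_pow h7)
    · have h7 := Int.prime_two.dvd_of_dvd_pow h6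
      omega

end FermatAgent.Eisenstein

end
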