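import Mathlib
import Fermat.Agent.Eisenstein.ConstantTerm

/-!
An odd prime dividing `p + 1` but not `p - 1` is not an Eisenstein congruence prime.
-/

set_option autoImplicit false

noncomputable section

open UpperHalfPlane Finset ModularForm EisensteinSeries
open scoped MatrixGroups ModularForm Manifold ArithmeticFunction.sigma

namespace FermatAgent.Eisenstein

/-- `(E₄ - E₆) / 24`. -/
def diffSer : PowerSeries ℤ := PowerSeries.C 10 * s3Ser + PowerSeries.C 21 * s5Ser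

lemma coeff_diffSer (n : ℕ) :
    diffSer.coeff n = 10 * (σ 3 n : ℤ) + 21 * (σ 5 n : ℤ) := by
  rw [diffSer, map_add, PowerSeries.coeff_C_mul, PowerSeries.coeff_C_mul, coeff_s3Ser, coeff_s5Ser]

lemma coeff_one_diffSer : diffSer.coeff 1 = 31 := by simp [coeff_diffSer]

lemma coeff_two_diffSer : diffSer.coeff 2 = 783 := by
  simp [coeff_diffSer, ArithmeticFunction.sigma_apply, Nat.prime_two.divisors]

lemma exists_lead_diffSer {l : ℕ} (hl : l.Prime) :
    ∃ (e : ℕ) (W : PowerSeries ℤ), 1 ≤ e ∧ ¬ (l : ℤ) ∣ W.coeff 0 ∧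
      PowerSeries.C (l : ℤ) ∣ diffSer - PowerSeries.X ^ e * W := by
  by_cases h : l = 31
  · subst h
    refine ⟨2, PowerSeries.mk fun n => diffSer.coeff (n + 2), by norm_num, ?_, ?_⟩
    · simp [coeff_two_diffSer]
    · rw [C_dvd_iff]
      intro n
      rw [map_sub, PowerSeries.coeff_X_pow_mul']
      rcases n with _ | _ | n
      · simp [coeff_diffSer]
      · simp [coeff_one_diffSer]
      · simp
  · refine ⟨1, PowerSeries.mk fun n => diffSer.coeff (n + 1), le_rfl, ?_, ?_⟩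
    · rw [PowerSeries.coeff_mk, zero_add, coeff_one_diffSer]
      intro hd
      have : l ∣ 31 := by exact_mod_cast hd
      exact h ((Nat.prime_dvd_prime_iff_eq hl (by norm_num)).mp this)
    · rw [C_dvd_iff]
      intro n
      rw [map_sub, pow_one]
      rcases n with _ | n
      · simp [coeff_diffSer]
      · simp [PowerSeries.coeff_succ_X_mul]

variable {p : ℕ} [NeZero p] [hp : Fact p.Prime]

omit [NeZero p] hp in
lemma C_dvd_contract {M : ℤ} {A B : PowerSeries ℤ} (h : PowerSeries.C M ∣ A - B) :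
    PowerSeries.C M ∣ contract p A - contract p B := by
  obtain ⟨R, hR⟩ := h
  exact ⟨contract p R, by rw [← contract_sub, hR, contract_C_mul]⟩

theorem not_odd_prime_dvd {m c t : ℤ} {G : ℍ → ℂ} (hG : IsConstMod p (24 * m) c G)
    (ht : ((p : ℤ) + 1) * c = 24 * m * t) {l : ℕ} (hl : l.Prime) (hlp : l ∣ p + 1)
    (hlc : ¬ (l : ℤ) ∣ c) : ¬ (l : ℤ) ∣ m := by
  intro hlm
  obtain ⟨R, R', -, -, hexp⟩ := hG
  obtain ⟨e, W, he, hW, hlead⟩ := exists_lead_diffSer hl
  -- the form `(G E₄ - c E₆) / 24`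
  have hH := (hexp.mul (hasExp_levelOne (p := p) (k := 4) E₄ hasSer_E4)).sub
    ((hasExp_levelOne (p := p) (k := 6) E₆ hasSer_E6).const_mul c)
  set P₀ : PowerSeries ℤ := PowerSeries.C c * diffSer + PowerSeries.C m * (R * e4Ser) with hP₀
  set Q₀ : PowerSeries ℤ :=
    PowerSeries.C m * (PowerSeries.C ((p : ℤ) ^ 5) * (R' * dilate p e4Ser - PowerSeries.C t)) +
      PowerSeries.C c * (PowerSeries.C (21 * (p : ℤ) ^ 6) * dilate p s5Ser -
        PowerSeries.C (10 * (p : ℤ) ^ 5) * dilate p s3Ser) with hQ₀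
  have hP : (PowerSeries.C c + PowerSeries.C (24 * m) * R) * e4Ser - PowerSeries.C c * e6Ser =
      PowerSeries.C 24 * P₀ := by
    rw [hP₀, e4Ser_eq, e6Ser_eq, diffSer]
    simp only [map_mul, map_ofNat]
    ring
  have hQ : PowerSeries.C (p : ℤ) * (PowerSeries.C (24 * m) * R' - PowerSeries.C c) *
        (PowerSeries.C ((p : ℤ) ^ 4) * dilate p e4Ser) -
      PowerSeries.C c * (PowerSeries.C ((p : ℤ) ^ 6) * dilate p e6Ser) =
      PowerSeries.C 24 * Q₀ := by
    have ht' := congrArg (PowerSeries.C (R := ℤ)) ht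
    rw [hQ₀, e4Ser_eq, e6Ser_eq]
    simp only [dilate_eq_expand, map_sub, map_mul, map_add,
      map_one, map_pow, map_ofNat] at ht' ⊢
    linear_combination (-(PowerSeries.C (p : ℤ)) ^ 5) * ht'
  rw [hP, hQ] at hH
  have hH0 := hH.div_const (a := 24) (by norm_num)
  -- reduction modulo `l`
  set Y : PowerSeries ℤ := PowerSeries.X ^ e * W with hY
  obtain ⟨m', hm'⟩ := hlm
  obtain ⟨q, hq⟩ : (l : ℤ) ∣ (p : ℤ) + 1 := by exact_mod_cast hlp
  obtain ⟨D, hD⟩ := hlead
  have hP0 : PowerSeries.C (l : ℤ) ∣ P₀ - PowerSeries.C c * Y := by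
    refine ⟨PowerSeries.C c * D + PowerSeries.C m' * (R * e4Ser), ?_⟩
    rw [hP₀, hm', map_mul]
    linear_combination PowerSeries.C c * hD
  have hQ0 : PowerSeries.C (l : ℤ) ∣ Q₀ - PowerSeries.C (c * (p : ℤ) ^ 6) * dilate p Y := by
    refine ⟨PowerSeries.C (c * (p : ℤ) ^ 6) * dilate p D +
      PowerSeries.C m' * (PowerSeries.C ((p : ℤ) ^ 5) * (R' * dilate p e4Ser - PowerSeries.C t)) -
      PowerSeries.C (10 * c * (p : ℤ) ^ 5 * q) * dilate p s3Ser, ?_⟩
    have hD' := congrArg (dilate p) hD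
    have hq' := congrArg (PowerSeries.C (R := ℤ)) hq
    rw [hQ₀, hm']
    simp only [diffSer, dilate_eq_expand, PowerSeries.expand_C, map_sub, map_mul, map_add,
      map_one, map_pow, map_ofNat] at hD' hq' ⊢
    linear_combination (PowerSeries.C c * PowerSeries.C (p : ℤ) ^ 6) * hD' -
      10 * PowerSeries.C c * PowerSeries.C (p : ℤ) ^ 5 *
        PowerSeries.expand p (NeZero.ne p) s3Ser * hq'
  -- the power `l ^ N`
  obtain ⟨N, u, hu, hN⟩ : ∃ N u, ¬ l ∣ u ∧ p + 1 = l ^ N * u :=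
    Nat.exists_eq_pow_mul_and_not_dvd (by omega) l hl.ne_one
  set s := l ^ N with hs
  have hs1 : 1 ≤ s := Nat.one_le_pow _ _ hl.pos
  have hP0s : PowerSeries.C ((l : ℤ) ^ (N + 1)) ∣ P₀ ^ s - (PowerSeries.C c * Y) ^ s := by
    rw [map_pow, map_natCast] at *
    exact dvd_sub_pow_of_dvd_sub hP0 N
  have hQ0s : PowerSeries.C ((l : ℤ) ^ (N + 1)) ∣
      Q₀ ^ s - (PowerSeries.C (c * (p : ℤ) ^ 6) * dilate p Y) ^ s := by
    rw [map_pow, map_natCast] at *
    exact dvd_sub_pow_of_dvd_sub hQ0 N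
  obtain ⟨h, -, hh⟩ := (hH0.pow s).exists_levelOne
  set T := PowerSeries.C ((p : ℤ) ^ (s * 6)) * P₀ ^ s + PowerSeries.C (p : ℤ) * contract p (Q₀ ^ s)
  set K : ℤ := (p : ℤ) ^ (s * 6) * ((p : ℤ) + 1) * c ^ s with hK
  have hT : PowerSeries.C ((l : ℤ) ^ (N + 1)) ∣ T - PowerSeries.C K * Y ^ s := by
    have h1 := hP0s.mul_left (PowerSeries.C ((p : ℤ) ^ (s * 6)))
    have h2 := (C_dvd_contract (p := p) hQ0s).mul_left (PowerSeries.C (p : ℤ))
    rw [mul_pow (PowerSeries.C (c * (p : ℤ) ^ 6)), ← map_pow, ← dilate_pow, contract_C_mul,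
      contract_dilate] at h2
    have h3 := h1.add h2
    convert h3 using 1
    simp only [T, hK, map_mul, map_add, map_pow, map_one, mul_pow, ← pow_mul, mul_comm 6 s]
    ring
  have hY0 : ∀ n < e * s, (Y ^ s).coeff n = 0 := by
    intro n hn
    rw [hY, mul_pow, ← pow_mul, PowerSeries.coeff_X_pow_mul', if_neg (by omega)]
  have hTlow : ∀ n, ∀ {y : ℤ}, (Y ^ s).coeff n = y → (l : ℤ) ^ (N + 1) ∣ T.coeff n →
      (l : ℤ) ^ (N + 1) ∣ K * y := by
    intro n y hy hd
    have h1 := C_dvd_iff.mp hT n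
    rw [map_sub, PowerSeries.coeff_C_mul, hy] at h1
    exact (dvd_sub_right hd).mp h1
  have hall := dvd_coeff_of_low ((l : ℤ) ^ (N + 1)) s (k := ((s * (2 + 4) : ℕ) : ℤ))
    (by push_cast; ring) h T hh fun n hn => by
      have h1 := C_dvd_iff.mp hT n
      have hsn : n < e * s := by
        have := Nat.mul_le_mul_right s he
        omega
      rw [map_sub, PowerSeries.coeff_C_mul, hY0 n hsn, mul_zero, sub_zero] at h1
      exact h1
  have hlead' : (Y ^ s).coeff (e * s) = W.coeff 0 ^ s := by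
    rw [hY, mul_pow, ← pow_mul, PowerSeries.coeff_X_pow_mul', if_pos le_rfl, Nat.sub_self,
      PowerSeries.coeff_zero_eq_constantCoeff_apply, PowerSeries.coeff_zero_eq_constantCoeff_apply,
      map_pow]
  have hfin := hTlow _ hlead' (hall (e * s))
  have hlz : Prime (l : ℤ) := Nat.prime_iff_prime_int.mp hl
  have hlnp : ¬ (l : ℤ) ∣ (p : ℤ) := fun hd => hlz.not_isUnit <| isUnit_of_dvd_one <| by
    have := (show (l : ℤ) ∣ (p : ℤ) + 1 by exact_mod_cast hlp).sub hd
    simpa using this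
  have hNz : ((p : ℤ) + 1) = (l : ℤ) ^ N * u := by exact_mod_cast hN
  rw [hK, hNz] at hfin
  have h5 : (l : ℤ) ^ N * (l : ℤ) ∣
      (l : ℤ) ^ N * ((p : ℤ) ^ (s * 6) * u * c ^ s * W.coeff 0 ^ s) := by
    rw [← pow_succ]
    refine dvd_of_eq_of_dvd ?_ hfin
    ring
  have h6 := (mul_dvd_mul_iff_left (pow_ne_zero _ hlz.ne_zero)).mp h5
  rcases hlz.dvd_or_dvd h6 with h7 | h7
  rotate_left
  · exact hW (hlz.dvd_of_dvd_pow h7)
  rcases hlz.dvd_or_dvd h7 with h8 | h8
  rotate_left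
  · exact hlc (hlz.dvd_of_dvd_pow h8)
  rcases hlz.dvd_or_dvd h8 with h9 | h9
  · exact hlnp (hlz.dvd_of_dvd_pow h9)
  · exact hu (by exact_mod_cast h9)

end FermatAgent.Eisenstein

end
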