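import Mathlib
import Fermat.Prelude.Def_ModularCurve_ModularUnit
import Fermat.Agent.Eisenstein.Cusp
import Fermat.Agent.Eisenstein.OddPrime
import Fermat.Agent.Eisenstein.ModEight

/-!
A cusp form congruent to the Eisenstein series modulo `m` forces `m` to divide the numerator of
`(p - 1) / 12`.
-/

set_option autoImplicit false

noncomputable section

open UpperHalfPlane CongruenceSubgroup Finset
open scoped MatrixGroups ModularForm Manifold ArithmeticFunction.sigma

namespace FermatAgent.Eisenstein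

variable {p : ℕ}

/-- The coefficients of the normalised Eisenstein series of level `p`. -/
def sigmaP (p n : ℕ) : ℤ :=
  (σ 1 n : ℤ) - if p ∣ n then (p : ℤ) * (σ 1 (n / p) : ℤ) else 0

lemma coeff_eisSer [NeZero p] {n : ℕ} (hn : n ≠ 0) : (eisSer p).coeff n = 24 * sigmaP p n := by
  simp only [eisSer, map_sub, PowerSeries.coeff_C_mul, coeff_dilate, e2Ser, PowerSeries.coeff_mk,
    if_neg hn, sigmaP]
  by_cases h : p ∣ n
  · have h0 : n / p ≠ 0 := (Nat.div_pos (Nat.le_of_dvd (Nat.pos_of_ne_zero hn) h)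
      (Nat.pos_of_ne_zero (NeZero.ne p))).ne'
    simp only [if_pos h, if_neg h0]
    ring
  · simp only [if_neg h]
    ring

lemma coeff_zero_eisSer [NeZero p] : (eisSer p).coeff 0 = (p : ℤ) - 1 := by
  rw [eisSer, map_sub, PowerSeries.coeff_C_mul, coeff_dilate]
  simp [e2Ser, -PowerSeries.coeff_zero_eq_constantCoeff]

variable [hp : Fact p.Prime] [NeZero p]

omit [NeZero p] in
lemma natCast_pred : ((p - 1 : ℕ) : ℤ) = (p : ℤ) - 1 := by
  rw [Nat.cast_sub hp.out.one_le, Nat.cast_one]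

/-- A congruence between a cusp form and the Eisenstein series gives a form constant modulo
`24 m`. -/
lemma exists_isConstMod (φ : CuspForm (Gamma0 p : Subgroup (GL (Fin 2) ℝ)) 2)
    {P : PowerSeries ℤ} (hP : HasSer φ P) {m : ℕ} (hP0 : P.coeff 0 = 0)
    (h1 : ∀ n, n ≠ 0 → (m : ℤ) ∣ sigmaP p n - P.coeff n)
    (h2 : ∀ n, n ≠ 0 → (m : ℤ) ∣ sigmaP p n - P.coeff (p * n)) :
    ∃ G, IsConstMod p (24 * (m : ℤ)) ((p - 1 : ℕ) : ℤ) G := by
  choose r hr using h1
  choose r' hr' using h2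
  let R := PowerSeries.mk fun n => if h : n = 0 then 0 else r n h
  let R' := PowerSeries.mk fun n => if h : n = 0 then 0 else -r' n h
  refine ⟨eisFun p - fun z => ((24 : ℤ) : ℂ) * φ z, R, R', by simp [R], by simp [R'], ?_⟩
  have hG := (hasExp_eisFun (p := p)).sub ((hasExp_cuspForm φ hP).const_mul 24)
  convert hG using 1
  · ext n
    rcases eq_or_ne n 0 with rfl | hn
    · simp only [map_add, map_sub, PowerSeries.coeff_C_mul, coeff_zero_eisSer, hP0, natCast_pred]
      simp [R]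
    · simp only [map_add, map_sub, PowerSeries.coeff_C_mul, PowerSeries.coeff_C, if_neg hn,
        coeff_eisSer hn, R, PowerSeries.coeff_mk, dif_neg hn]
      linear_combination (-24 : ℤ) * hr n hn
  · ext n
    rcases eq_or_ne n 0 with rfl | hn
    · simp only [map_sub, PowerSeries.coeff_C_mul, coeff_zero_eisSer, coeff_contract, mul_zero,
        hP0, natCast_pred]
      simp [R']
      ring
    · simp only [map_sub, PowerSeries.coeff_C_mul, coeff_contract, PowerSeries.coeff_C, if_neg hn,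
        coeff_eisSer hn, R', PowerSeries.coeff_mk, dif_neg hn]
      linear_combination (24 * (p : ℤ)) * hr' n hn

lemma eight_mul_not_dvd {m a b : ℕ} (ha : ¬ 2 ∣ a) (hb : ¬ 2 ∣ b)
    (h : 24 * m ∣ 4 * a * (2 * b)) : ¬ 2 ∣ m := by
  intro hm
  have h1 : 8 * 2 ∣ 8 * (a * b) :=
    (((Nat.mul_dvd_mul_left 8 hm).trans ⟨3, by ring⟩).trans h).trans ⟨1, by ring⟩
  rcases Nat.prime_two.dvd_mul.mp (Nat.dvd_of_mul_dvd_mul_left (by norm_num) h1) with e | e
  exacts [ha e, hb e]

/-- The arithmetic conclusion. -/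
lemma dvd_numerator_of_isConstMod (hp5 : 5 ≤ p) {m : ℕ} {G : ℍ → ℂ}
    (hG : IsConstMod p (24 * (m : ℤ)) ((p - 1 : ℕ) : ℤ) G) :
    m ∣ ModularCurve.eisensteinNumerator p := by
  have hpp := hp.out
  obtain ⟨c, hpc⟩ : ∃ c, p = c + 1 := ⟨p - 1, by omega⟩
  have hc0 : c ≠ 0 := by omega
  have hpc' : p - 1 = c := by omega
  rw [ModularCurve.eisensteinNumerator, hpc']
  rw [hpc'] at hG
  have hpnc : ¬ p ∣ c := fun h => by
    have := Nat.le_of_dvd (Nat.pos_of_ne_zero hc0) h
    omega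
  have hpm : ¬ p ∣ 24 * m := fun h =>
    not_prime_dvd hG hp5 (by exact_mod_cast hpnc) (by exact_mod_cast h)
  have hd : 24 * m ∣ (p + 1) * c := by
    have h := dvd_mul_succ hG
    have h' : 24 * m ∣ p ^ 13 * ((p + 1) * c) := by
      rw [← mul_assoc]
      exact_mod_cast h
    exact (Nat.Coprime.pow_right 13 (Nat.coprime_comm.mp (hpp.coprime_iff_not_dvd.mpr hpm))
      ).dvd_of_dvd_mul_left h'
  obtain ⟨t, ht⟩ := hd
  have hodd : ∀ l : ℕ, l.Prime → l ∣ p + 1 → l ≠ 2 → ¬ l ∣ c ∧ ¬ l ∣ m := by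
    intro l hl hls hl2
    have hlc : ¬ l ∣ c := fun h => by
      have h2 : l ∣ 2 := by
        have := Nat.dvd_sub hls h
        rwa [show p + 1 - c = 2 by omega] at this
      exact hl2 ((Nat.prime_dvd_prime_iff_eq hl Nat.prime_two).mp h2)
    refine ⟨hlc, fun h => not_odd_prime_dvd hG (t := (t : ℤ)) ?_ hl hls (by exact_mod_cast hlc)
      (by exact_mod_cast h)⟩
    exact_mod_cast ht
  obtain ⟨a, ha⟩ : 2 ∣ p + 1 := by
    rcases hpp.eq_two_or_odd with h | h <;> omega
  have hg12 : Nat.gcd c 12 ∣ 12 := Nat.gcd_dvd_right _ _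
  have hgc : Nat.gcd c 12 ∣ c := Nat.gcd_dvd_left _ _
  suffices h : Nat.gcd c 12 * m ∣ c by
    refine Nat.dvd_div_of_mul_dvd ?_
    exact h
  have h12 : Nat.gcd c 12 * m ∣ a * c := by
    refine (Nat.mul_dvd_mul_right hg12 m).trans ?_
    refine Nat.dvd_of_mul_dvd_mul_left (show 0 < 2 by norm_num) ⟨t, ?_⟩
    rw [← mul_assoc, ← ha, ht]
    ring
  have haodd : ∀ l : ℕ, l.Prime → l ∣ a → l ≠ 2 → ¬ l ∣ Nat.gcd c 12 * m := by
    intro l hl hla hl2 h
    obtain ⟨hlc, hlm⟩ := hodd l hl (hla.trans ⟨2, by omega⟩) hl2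
    rcases hl.dvd_mul.mp h with h | h
    exacts [hlc (h.trans hgc), hlm h]
  rcases Nat.even_or_odd a with hae | hao
  · -- `p ≡ 3 mod 4`, so `m` is odd
    obtain ⟨a', rfl⟩ := hae.two_dvd
    have hm2 : ¬ 2 ∣ m := by
      rcases Nat.even_or_odd a' with ha'e | ha'o
      · intro h2
        obtain ⟨R, R', -, -, hexp⟩ := hG
        obtain ⟨m', rfl⟩ := h2
        obtain ⟨k, rfl⟩ := ha'e.two_dvd
        obtain ⟨u, hu⟩ : 2 ∣ c := by omega
        set T : PowerSeries ℤ := PowerSeries.C (3 * (m' : ℤ)) with hT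
        have hexp' : HasExp p 2 G
            (PowerSeries.C 2 * (PowerSeries.C (u : ℤ) + PowerSeries.C 8 * (T * R)))
            (PowerSeries.C 2 * (PowerSeries.C (u : ℤ) + PowerSeries.C 8 *
              (PowerSeries.C (p : ℤ) * (T * R') - PowerSeries.C ((k : ℤ) * u)))) := by
          have hk : (p : ℤ) + 1 = 8 * k := by exact_mod_cast (show p + 1 = 8 * k by omega)
          convert hexp using 1 <;> ext n <;> simp only [hT, hu, map_add, map_sub,
            PowerSeries.coeff_C_mul, Nat.cast_mul, Nat.cast_ofNat, PowerSeries.coeff_C] <;>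
            split_ifs
          all_goals first
            | linear_combination 2 * (u : ℤ) * hk
            | ring
        exact not_const_mod_eight (p := p) (by omega) (u := (u : ℤ)) (by omega)
          (HasExp.div_const (a := 2) (by norm_num) hexp')
      · obtain ⟨k, hk⟩ := ha'o
        refine eight_mul_not_dvd (a := a') (b := 2 * a' - 1) (by omega) (by omega) ⟨t, ?_⟩
        rw [show 4 * a' = p + 1 by omega, show 2 * (2 * a' - 1) = c by omega, ht]
    obtain ⟨u, hu⟩ : 2 ∣ c := by omega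
    obtain ⟨g', hg'⟩ : 2 ∣ Nat.gcd c 12 := Nat.dvd_gcd ⟨u, hu⟩ (by norm_num)
    have hg'u : g' ∣ u := Nat.dvd_of_mul_dvd_mul_left (by norm_num : 0 < 2) (hg' ▸ hu ▸ hgc)
    have hu2 : ¬ 2 ∣ u := by omega
    have h' : g' * m ∣ 2 * a' * u := by
      refine Nat.dvd_of_mul_dvd_mul_left (by norm_num : 0 < 2) ?_
      rw [hg', hu] at h12
      calc 2 * (g' * m) = 2 * g' * m := by ring
        _ ∣ 2 * a' * (2 * u) := h12
        _ = 2 * (2 * a' * u) := by ring
    have hcop : (g' * m).Coprime (2 * a') := Nat.coprime_of_dvd fun l hl h1 h2 => by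
      rcases eq_or_ne l 2 with rfl | hl2
      · rcases Nat.prime_two.dvd_mul.mp h1 with h | h
        exacts [hu2 (h.trans hg'u), hm2 h]
      · refine haodd l hl h2 hl2 ?_
        rw [hg', mul_assoc]
        exact h1.trans (dvd_mul_left _ _)
    rw [hg', hu, mul_assoc]
    exact Nat.mul_dvd_mul_left 2 (hcop.dvd_of_dvd_mul_left h')
  · obtain ⟨k, hk⟩ := hao
    refine Nat.Coprime.dvd_of_dvd_mul_left ?_ h12
    refine Nat.coprime_of_dvd fun l hl h1 h2 => haodd l hl h2 ?_ h1
    rintro rfl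
    omega

/-- A cusp form congruent to the Eisenstein series modulo `m`. -/
theorem dvd_numerator_of_congr (hp5 : 5 ≤ p)
    (φ : CuspForm (Gamma0 p : Subgroup (GL (Fin 2) ℝ)) 2) {P : PowerSeries ℤ} (hP : HasSer φ P)
    (hP0 : P.coeff 0 = 0) {m : ℕ}
    (h1 : ∀ n, n ≠ 0 → (m : ℤ) ∣ sigmaP p n - P.coeff n)
    (h2 : ∀ n, n ≠ 0 → (m : ℤ) ∣ sigmaP p n - P.coeff (p * n)) :
    m ∣ ModularCurve.eisensteinNumerator p := by
  obtain ⟨G, hG⟩ := exists_isConstMod φ hP hP0 h1 h2
  exact dvd_numerator_of_isConstMod hp5 hG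

end FermatAgent.Eisenstein

end
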