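import Mathlib
import Fermat.Prelude.Def_ModularCurve_ModularUnit
import Fermat.Agent.ModCurve.Group.Universal
import Fermat.Agent.Periods.HeckeHom

/-!
The character of `Γ₀(p)` modulo the numerator of `(p - 1) / 12`, and its Hecke eigenvalues.
-/

set_option autoImplicit false

noncomputable section

open CongruenceSubgroup
open scoped MatrixGroups

namespace FermatAgent.Eisenstein

variable {p : ℕ} [hp : Fact p.Prime]

variable (p) in
/-- The projection of `(ℤ/p)ˣ` onto its cyclic quotient of order the Eisenstein numerator. -/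
def unitsChar : Additive (ZMod p)ˣ →+ ZMod (ModularCurve.eisensteinNumerator p) :=
  have : NeZero p := ⟨hp.out.ne_zero⟩
  have h : ModularCurve.eisensteinNumerator p ∣ Nat.card (ZMod p)ˣ := by
    rw [Nat.card_eq_fintype_card, ZMod.card_units]
    exact ModularCurve.eisensteinNumerator_dvd p
  (ZMod.castHom h (ZMod (ModularCurve.eisensteinNumerator p))).toAddMonoidHom.comp
    (MonoidHom.toAdditiveLeft
      ((zmodCyclicMulEquiv (inferInstance : IsCyclic (ZMod p)ˣ)).symm.toMonoidHom))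

lemma unitsChar_surjective : Function.Surjective (unitsChar p) := by
  have : NeZero p := ⟨hp.out.ne_zero⟩
  intro x
  obtain ⟨y, rfl⟩ := ZMod.castHom_surjective
    (show ModularCurve.eisensteinNumerator p ∣ Nat.card (ZMod p)ˣ by
      rw [Nat.card_eq_fintype_card, ZMod.card_units]
      exact ModularCurve.eisensteinNumerator_dvd p) x
  refine ⟨Additive.ofMul (zmodCyclicMulEquiv inferInstance (Multiplicative.ofAdd y)), ?_⟩
  simp [unitsChar]

lemma unitsChar_eq_zero {u : (ZMod p)ˣ} (hu : u ^ 12 = 1) :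
    unitsChar p (Additive.ofMul u) = 0 := by
  have : NeZero p := ⟨hp.out.ne_zero⟩
  have hcard : Nat.card (ZMod p)ˣ = p - 1 := by rw [Nat.card_eq_fintype_card, ZMod.card_units]
  obtain ⟨y, rfl⟩ : ∃ y, zmodCyclicMulEquiv (inferInstance : IsCyclic (ZMod p)ˣ)
      (Multiplicative.ofAdd y) = u :=
    ⟨_, (zmodCyclicMulEquiv (inferInstance : IsCyclic (ZMod p)ˣ)).apply_symm_apply u⟩
  rw [← map_pow, ← ofAdd_nsmul, MulEquiv.map_eq_one_iff, ofAdd_eq_one, nsmul_eq_mul] at hu
  have hval : Nat.card (ZMod p)ˣ ∣ 12 * y.val := by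
    have : NeZero (Nat.card (ZMod p)ˣ) := ⟨by rw [hcard]; have := hp.out.one_lt; omega⟩
    rw [← ZMod.natCast_eq_zero_iff, Nat.cast_mul, ZMod.natCast_zmod_val]
    exact hu
  simp only [unitsChar, AddMonoidHom.comp_apply, MonoidHom.toAdditiveLeft_apply_apply,
    toMul_ofMul, MulEquiv.coe_toMonoidHom, MulEquiv.symm_apply_apply, toAdd_ofAdd]
  have : NeZero (Nat.card (ZMod p)ˣ) := ⟨by rw [hcard]; have := hp.out.one_lt; omega⟩
  rw [show ∀ (f : ZMod (Nat.card (ZMod p)ˣ) →+* ZMod (ModularCurve.eisensteinNumerator p)) (x : _),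
    f.toAddMonoidHom x = f x from fun _ _ => rfl]
  rw [ZMod.castHom_apply, ZMod.cast_eq_val, ZMod.natCast_eq_zero_iff,
    ModularCurve.eisensteinNumerator]
  generalize y.val = v at hval ⊢
  rw [hcard] at hval
  have hg : p - 1 ∣ Nat.gcd (p - 1) 12 * v := by
    rw [← Nat.gcd_mul_right]
    exact Nat.dvd_gcd (dvd_mul_right _ _) hval
  exact (Nat.div_dvd_iff_dvd_mul (Nat.gcd_dvd_left _ _) (Nat.gcd_pos_of_pos_right _ (by norm_num))).mpr hg

variable (p) in
/-- The Eisenstein character of `Γ₀(p)`. -/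
def eisChar : Additive (Gamma0 p) →+ ZMod (ModularCurve.eisensteinNumerator p) :=
  (unitsChar p).comp (MonoidHom.toAdditive (Gamma0Map p).toHomUnits)

/-- The lower right entry modulo `p`, as a unit. -/
lemma coe_toHomUnits (γ : Gamma0 p) :
    (((Gamma0Map p).toHomUnits γ : (ZMod p)ˣ) : ZMod p) = (((γ : SL(2, ℤ)) 1 1 : ℤ) : ZMod p) :=
  rfl

lemma eisChar_apply (γ : Gamma0 p) :
    eisChar p (Additive.ofMul γ) = unitsChar p (Additive.ofMul ((Gamma0Map p).toHomUnits γ)) :=
  rfl

lemma diag_mul_eq_one (γ : Gamma0 p) :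
    (((γ : SL(2, ℤ)) 0 0 : ℤ) : ZMod p) * (((γ : SL(2, ℤ)) 1 1 : ℤ) : ZMod p) = 1 := by
  have hdet := congrArg (Int.cast : ℤ → ZMod p) (Matrix.SpecialLinearGroup.det_coe (γ : SL(2, ℤ)))
  rw [Matrix.det_fin_two] at hdet
  push_cast at hdet
  rw [Gamma0_mem.mp γ.2, mul_zero, sub_zero] at hdet
  exact hdet

lemma killsEP_eisChar : ModCurveGroup.KillsEP (Gamma0 p) (eisChar p) := by
  intro γ ht
  rw [eisChar_apply]
  refine unitsChar_eq_zero (Units.ext ?_)
  rw [Units.val_pow_eq_pow_val, Units.val_one, coe_toHomUnits]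
  have h1 := diag_mul_eq_one γ
  set t := ((γ : SL(2, ℤ)) : Matrix (Fin 2) (Fin 2) ℤ).trace with htr
  have htd : (t : ZMod p) = (((γ : SL(2, ℤ)) 0 0 : ℤ) : ZMod p) +
      (((γ : SL(2, ℤ)) 1 1 : ℤ) : ZMod p) := by
    rw [htr, Matrix.trace_fin_two]
    push_cast
    rfl
  set d := (((γ : SL(2, ℤ)) 1 1 : ℤ) : ZMod p)
  have hq : d * d - (t : ZMod p) * d + 1 = 0 := by
    rw [htd]
    linear_combination -h1
  have hlo : -2 ≤ t := by nlinarith
  have hhi : t ≤ 2 := by nlinarith
  interval_cases t <;> push_cast at hq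
  · rcases eq_or_ne d (-1) with h | h
    · rw [h]; norm_num
    · exact absurd (pow_eq_zero_iff (n := 2) (by norm_num) |>.mp
        (show (d + 1) ^ 2 = 0 by linear_combination hq)) (fun h0 => h (eq_neg_of_add_eq_zero_left h0))
  · have h3 : d ^ 3 = 1 := by linear_combination (d - 1) * hq
    calc d ^ 12 = (d ^ 3) ^ 4 := by ring
      _ = 1 := by rw [h3, one_pow]
  · have h2 : d ^ 2 = -1 := by linear_combination hq
    calc d ^ 12 = (d ^ 2) ^ 6 := by ring
      _ = 1 := by rw [h2]; norm_num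
  · have h3 : d ^ 3 = -1 := by linear_combination (d + 1) * hq
    calc d ^ 12 = (d ^ 3) ^ 4 := by ring
      _ = 1 := by rw [h3]; norm_num
  · have h : d - 1 = 0 := pow_eq_zero_iff (n := 2) (by norm_num) |>.mp
      (show (d - 1) ^ 2 = 0 by linear_combination hq)
    rw [sub_eq_zero.mp h, one_pow]

lemma exists_eisChar_eq_one : ∃ γ : Gamma0 p, eisChar p (Additive.ofMul γ) = 1 := by
  have : NeZero p := ⟨hp.out.ne_zero⟩
  obtain ⟨u, hu⟩ := unitsChar_surjective (p := p) 1
  set d := (Additive.toMul u : (ZMod p)ˣ).val.val with hd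
  have hdu : (d : ZMod p) = (Additive.toMul u : (ZMod p)ˣ).val := ZMod.natCast_zmod_val _
  have hne : ¬ p ∣ d := fun h => by
    rw [← ZMod.natCast_eq_zero_iff, hdu] at h
    exact (Additive.toMul u).ne_zero h
  have hcop : IsCoprime (p : ℤ) (d : ℤ) := by
    rw [← Int.natCast_dvd_natCast] at hne
    exact (Nat.prime_iff_prime_int.mp hp.out).coprime_iff_not_dvd.mpr hne
  obtain ⟨x, y, hxy⟩ := hcop
  let g : SL(2, ℤ) := ⟨!![y, -x; (p : ℤ), (d : ℤ)], by
    rw [Matrix.det_fin_two_of]; linear_combination hxy⟩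
  have hg : g ∈ Gamma0 p := Gamma0_mem.mpr (by simp [g])
  refine ⟨⟨g, hg⟩, ?_⟩
  rw [eisChar_apply, ← hu]
  refine congrArg (unitsChar p) (congrArg Additive.ofMul (Units.ext ?_))
  rw [coe_toHomUnits]
  refine Eq.trans ?_ hdu
  simp [g]

lemma natCast_self_zmod_numerator : (p : ZMod (ModularCurve.eisensteinNumerator p)) = 1 := by
  have h := (ZMod.natCast_eq_zero_iff (p - 1) _).mpr (ModularCurve.eisensteinNumerator_dvd p)
  rw [Nat.cast_sub hp.out.one_le, Nat.cast_one, sub_eq_zero] at h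
  exact h

/-- `U_p` fixes the Eisenstein character. -/
lemma heckeHomU_eisChar [NeZero p] :
    Periods.heckeHomU ℤ p (dvd_refl p) (eisChar p) = eisChar p := by
  refine AddMonoidHom.ext fun γ => ?_
  obtain ⟨γ, rfl⟩ : ∃ g : Gamma0 p, Additive.ofMul g = γ := ⟨Additive.toMul γ, rfl⟩
  set D := Periods.uCorr p (dvd_refl p) with hD
  rw [Periods.heckeHomU, Periods.HeckeCorr.transfer_apply]
  have key : ∀ i, eisChar p (Additive.ofMul (D.move γ i)) = eisChar p (Additive.ofMul γ) := by
    intro i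
    rw [eisChar_apply, eisChar_apply]
    refine congrArg (unitsChar p) (congrArg Additive.ofMul (Units.ext ?_))
    rw [coe_toHomUnits, coe_toHomUnits]
    have h := congrArg (fun M : Matrix (Fin 2) (Fin 2) ℤ => ((M 0 0 : ℤ) : ZMod p))
      (D.move_spec γ i)
    simp only [Matrix.mul_apply, Fin.sum_univ_two, hD, Periods.uCorr_rep, Periods.upperRep,
      Matrix.of_apply, Matrix.cons_val', Matrix.cons_val_zero, Matrix.cons_val_one,
      Matrix.cons_val_fin_one, Int.cast_add, Int.cast_mul,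
      one_mul, mul_one, mul_zero, add_zero, Gamma0_mem.mp γ.2] at h
    rw [← hD] at h
    exact left_inv_eq_right_inv (h ▸ (by rw [mul_comm]; exact diag_mul_eq_one (D.move γ i)))
      (diag_mul_eq_one γ)
  rw [Finset.sum_congr rfl fun i _ => key i, Finset.sum_const, Finset.card_univ, ZMod.card,
    nsmul_eq_mul, natCast_self_zmod_numerator, one_mul]

/-- `T_l` multiplies the Eisenstein character by `1 + l`. -/
lemma heckeHomT_eisChar {l : ℕ} (hl : l.Prime) (hlp : ¬ l ∣ p) :
    Periods.heckeHomT ℤ p hl hlp (eisChar p) = ((1 : ℤ) + (l : ℤ)) • eisChar p := by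
  have : NeZero l := ⟨hl.ne_zero⟩
  refine AddMonoidHom.ext fun γ => ?_
  obtain ⟨γ, rfl⟩ : ∃ g : Gamma0 p, Additive.ofMul g = γ := ⟨Additive.toMul γ, rfl⟩
  set D := Periods.tCorr p hl hlp with hD
  rw [Periods.heckeHomT, Periods.HeckeCorr.transfer_apply, AddMonoidHom.smul_apply]
  have hl0 : ((l : ZMod p)) ≠ 0 := fun h => by
    rw [ZMod.natCast_eq_zero_iff, Nat.prime_dvd_prime_iff_eq hp.out hl] at h
    exact hlp (h ▸ dvd_rfl)
  let r : Option (ZMod l) → (ZMod p)ˣ := fun i => match i with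
    | none => 1
    | some _ => Units.mk0 (l : ZMod p) hl0
  have hr : ∀ i, ((Periods.tRep l i 1 1 : ℤ) : ZMod p) = (r i : ZMod p) := by
    intro i
    cases i <;> simp [Periods.tRep, Periods.diagRep, Periods.upperRep, r]
  have hz : ∀ i, (Periods.tRep l i 1 0 : ℤ) = 0 := by
    intro i
    cases i <;> simp [Periods.tRep, Periods.diagRep, Periods.upperRep]
  let ρ : Option (ZMod l) → ZMod (ModularCurve.eisensteinNumerator p) :=
    fun i => unitsChar p (Additive.ofMul (r i))
  have key : ∀ i, eisChar p (Additive.ofMul (D.move γ i)) =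
      ρ i + eisChar p (Additive.ofMul γ) - ρ (D.target γ i) := by
    intro i
    rw [eq_sub_iff_add_eq, eisChar_apply, eisChar_apply, ← map_add (unitsChar p), ← map_add (unitsChar p), ← ofMul_mul,
      ← ofMul_mul]
    refine congrArg (unitsChar p) (congrArg Additive.ofMul (Units.ext ?_))
    rw [Units.val_mul, Units.val_mul, coe_toHomUnits, coe_toHomUnits, ← hr, ← hr]
    have h := congrArg (fun M : Matrix (Fin 2) (Fin 2) ℤ => ((M 1 1 : ℤ) : ZMod p))
      (D.move_spec γ i)
    simp only [Matrix.mul_apply, Fin.sum_univ_two, hD, Periods.tCorr_rep, hz, Int.cast_add,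
      Int.cast_mul, zero_mul, zero_add] at h
    rw [← hD] at h
    rw [h, Gamma0_mem.mp (D.move γ i).2, zero_mul, zero_add]
  rw [Finset.sum_congr rfl fun i _ => key i, Finset.sum_sub_distrib, Finset.sum_add_distrib,
    show ∑ i, ρ (D.target γ i) = ∑ i, ρ i from Equiv.sum_comp (D.targetEquiv γ) ρ,
    Finset.sum_const, Finset.card_univ, Fintype.card_option, ZMod.card]
  rw [add_sub_cancel_left, add_comm (1 : ℤ), ← Nat.cast_one (R := ℤ), ← Nat.cast_add,
    natCast_zsmul]

end FermatAgent.Eisenstein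

end
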