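import Mathlib
import Fermat.Prelude.Def_CuspForm_HeckeLocal
import Fermat.Agent.DSLift.QExp
import Fermat.Agent.Eisenstein.Bound

/-!
Duality between the Hecke algebra and the integral lattice: a character modulo `m` of the Hecke
algebra is realised by an integral cusp form.
-/

set_option autoImplicit false

noncomputable section

open CongruenceSubgroup ModularFormClass FermatAgent.DSLift
open scoped ArithmeticFunction.sigma

namespace FermatAgent.Eisenstein

lemma sigma_one_mul_prime {l : ℕ} (hl : l.Prime) {n : ℕ} (hn : n ≠ 0) :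
    (σ 1 (n * l) : ℤ) = (1 + (l : ℤ)) * σ 1 n - if l ∣ n then (l : ℤ) * σ 1 (n / l) else 0 := by
  obtain ⟨e, m, hlm, rfl⟩ := Nat.exists_eq_pow_mul_and_not_dvd hn l hl.ne_one
  have hcop : ∀ i, (l ^ i).Coprime m := fun i =>
    ((Nat.Prime.coprime_iff_not_dvd hl).mpr hlm).pow_left i
  have hmul : ∀ i, (σ 1 (l ^ i * m) : ℤ) =
      (∑ j ∈ Finset.range (i + 1), (l : ℤ) ^ j) * σ 1 m := fun i => by
    rw [ArithmeticFunction.isMultiplicative_sigma.map_mul_of_coprime (hcop i),
      ArithmeticFunction.sigma_apply_prime_pow hl]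
    push_cast
    simp
  rw [show l ^ e * m * l = l ^ (e + 1) * m by ring, hmul, hmul]
  cases e with
  | zero => simp [hlm, Finset.sum_range_succ]
  | succ e =>
    rw [if_pos (dvd_mul_of_dvd_left (dvd_pow_self l e.succ_ne_zero) m),
      show l ^ (e + 1) * m / l = l ^ e * m by
        rw [show l ^ (e + 1) * m = l ^ e * m * l by ring, Nat.mul_div_cancel _ hl.pos],
      hmul, Finset.sum_range_succ _ (e + 1 + 1), Finset.sum_range_succ _ (e + 1)]
    ring

lemma sigmaP_mul_self {p : ℕ} (hp : p.Prime) {n : ℕ} (hn : n ≠ 0) :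
    sigmaP p (n * p) = sigmaP p n := by
  rw [sigmaP, sigmaP, if_pos (dvd_mul_left p n), Nat.mul_div_cancel _ hp.pos,
    sigma_one_mul_prime hp hn]
  ring

lemma sigmaP_mul_prime {p l : ℕ} (hp : p.Prime) (hl : l.Prime) (hlp : l ≠ p) {n : ℕ}
    (hn : n ≠ 0) :
    sigmaP p (n * l) =
      (1 + (l : ℤ)) * sigmaP p n - if l ∣ n then (l : ℤ) * sigmaP p (n / l) else 0 := by
  have hcop : p.Coprime l := (Nat.coprime_primes hp hl).mpr hlp.symm
  have h1 : p ∣ n * l ↔ p ∣ n := hcop.dvd_mul_right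
  simp only [sigmaP, h1]
  rw [sigma_one_mul_prime hl hn]
  by_cases hpn : p ∣ n
  · have hn' : n / p ≠ 0 := (Nat.div_pos (Nat.le_of_dvd (Nat.pos_of_ne_zero hn) hpn) hp.pos).ne'
    have h2 : n * l / p = n / p * l := Nat.mul_div_right_comm hpn l
    have h3 : l ∣ n / p ↔ l ∣ n := by
      conv_rhs => rw [← Nat.div_mul_cancel hpn]
      exact (hcop.symm.dvd_mul_right).symm
    simp only [if_pos hpn, h2, sigma_one_mul_prime hl hn', h3]
    by_cases hln : l ∣ n
    · have h4 : p ∣ n / l := by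
        refine (hcop.dvd_mul_right).mp ?_
        rwa [Nat.div_mul_cancel hln]
      simp only [if_pos hln, if_pos h4, show n / p / l = n / l / p by
        rw [Nat.div_div_eq_div_mul, Nat.div_div_eq_div_mul, mul_comm]]
      ring
    · simp only [if_neg hln]
      ring
  · by_cases hln : l ∣ n
    · have h4 : ¬ p ∣ n / l := fun h => hpn (h.trans (Nat.div_dvd_of_dvd hln))
      simp only [if_neg hpn, if_pos hln, if_neg h4]
      ring
    · simp only [if_neg hpn, if_neg hln]
      ring

variable {p : ℕ} [hp : Fact p.Prime] {A : Type*} [CommRing A]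

/-- A character of the Hecke algebra with the Eisenstein eigenvalues. -/
structure IsEisensteinChar (ψ : CuspForm.heckeAlgebra p 2 ∅ →+* A) : Prop where
  map_T : ∀ (l : ℕ) (hl : l.Prime) (hlp : ¬ l ∣ p),
    ψ (CuspForm.heckeAlgebra.T hl hlp (Set.notMem_empty l)) = 1 + (l : A)
  map_U : ψ (CuspForm.heckeAlgebra.U hp.out dvd_rfl (Set.notMem_empty p)) = 1

/-- The element picking out the `k`-th coefficient, and its value under an Eisenstein character. -/
lemma exists_coeffElem {ψ : CuspForm.heckeAlgebra p 2 ∅ →+* A} (hψ : IsEisensteinChar ψ) :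
    ∀ k : ℕ, k ≠ 0 → ∃ t : CuspForm.heckeAlgebra p 2 ∅,
      (∀ f : CuspForm (Gamma0 p) 2, qCoeff ⇑(t.1 f) 1 = qCoeff ⇑f k) ∧
        ψ t = (sigmaP p k : A) := by
  intro k
  induction k using Nat.strong_induction_on with
  | _ k ih =>
  intro hk
  rcases eq_or_ne k 1 with rfl | hk1
  · exact ⟨1, fun f => rfl, by simp [sigmaP, hp.out.ne_one]⟩
  obtain ⟨l, hl, n, rfl⟩ := Nat.exists_prime_and_dvd hk1
  have hn : n ≠ 0 := fun h => hk (by simp [h])
  have hlt : n < l * n := lt_mul_of_one_lt_left (Nat.pos_of_ne_zero hn) hl.one_lt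
  obtain ⟨t, ht, htψ⟩ := ih n hlt hn
  rw [mul_comm l n]
  by_cases hlp : l ∣ p
  · obtain rfl : l = p := (Nat.prime_dvd_prime_iff_eq hl hp.out).mp hlp
    refine ⟨t * CuspForm.heckeAlgebra.U hl dvd_rfl (Set.notMem_empty l), fun f => ?_, ?_⟩
    · exact (ht _).trans (qCoeff_heckeULin hl.ne_zero dvd_rfl f n)
    · rw [map_mul, htψ, hψ.map_U, mul_one, sigmaP_mul_self hl hn]
  · have hne : l ≠ p := fun h => hlp (h ▸ dvd_rfl)
    by_cases hln : l ∣ n
    · obtain ⟨t', ht', htψ'⟩ := ih (n / l) (lt_of_le_of_lt (Nat.div_le_self n l) hlt)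
        (Nat.div_pos (Nat.le_of_dvd (Nat.pos_of_ne_zero hn) hln) hl.pos).ne'
      refine ⟨t * CuspForm.heckeAlgebra.T hl hlp (Set.notMem_empty l) - (l : ℤ) • t', fun f => ?_,
        ?_⟩
      · show qCoeffLin p 2 1 (t.1 (CuspForm.heckeTLin 2 hl hlp f) - ((l : ℤ) • t'.1) f) = _
        rw [map_sub, LinearMap.smul_apply, map_zsmul, qCoeffLin_apply, qCoeffLin_apply, ht, ht',
          qCoeff_heckeTLin hl hlp f n, if_pos hln, zsmul_eq_mul]
        norm_num
      · rw [map_sub, map_mul, map_zsmul, htψ, htψ', hψ.map_T l hl hlp,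
          sigmaP_mul_prime hp.out hl hne hn, if_pos hln, zsmul_eq_mul]
        push_cast
        ring
    · refine ⟨t * CuspForm.heckeAlgebra.T hl hlp (Set.notMem_empty l), fun f => ?_, ?_⟩
      · show qCoeff ⇑(t.1 (CuspForm.heckeTLin 2 hl hlp f)) 1 = _
        rw [ht, qCoeff_heckeTLin hl hlp f n, if_neg hln, add_zero]
      · rw [map_mul, htψ, hψ.map_T l hl hlp, sigmaP_mul_prime hp.out hl hne hn, if_neg hln]
        push_cast
        ring

variable (p) in
/-- The coefficient pairing on the integral lattice. -/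
def coeffPairing : CuspForm.intLattice p 2 →+ (CuspForm.heckeAlgebra p 2 ∅ →ₗ[ℤ] ℂ) where
  toFun f :=
    (((qCoeffLin p 2 1).comp (LinearMap.applyₗ f.1)).restrictScalars ℤ).comp
      (CuspForm.heckeAlgebra p 2 ∅).val.toLinearMap
  map_zero' := LinearMap.ext fun t => by simp
  map_add' f g := LinearMap.ext fun t => (congrArg (qCoeffLin p 2 1) (map_add t.1 f.1 g.1)).trans
    (map_add _ _ _)

lemma intCast_injective_complex : Function.Injective (Int.cast : ℤ → ℂ) := Int.cast_injective

/-- The integral coefficient pairing. -/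
def intPairing : CuspForm.intLattice p 2 →ₗ[ℤ] (CuspForm.heckeAlgebra p 2 ∅ →ₗ[ℤ] ℤ) :=
  AddMonoidHom.toIntLinearMap <| AddMonoidHom.mk' (fun f =>
    AddMonoidHom.toIntLinearMap <| AddMonoidHom.mk' (fun t =>
      (mem_intLattice_iff.mp (CuspForm.mem_intLattice_of_mem_heckeAlgebra one_le_two t.2 f.2)
        1).choose) fun s t => intCast_injective_complex <| by
      rw [Int.cast_add,
        ← (mem_intLattice_iff.mp (CuspForm.mem_intLattice_of_mem_heckeAlgebra one_le_two
          (s + t).2 f.2) 1).choose_spec,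
        ← (mem_intLattice_iff.mp (CuspForm.mem_intLattice_of_mem_heckeAlgebra one_le_two
          s.2 f.2) 1).choose_spec,
        ← (mem_intLattice_iff.mp (CuspForm.mem_intLattice_of_mem_heckeAlgebra one_le_two
          t.2 f.2) 1).choose_spec]
      exact map_add (coeffPairing p f) s t)
    fun f g => LinearMap.ext fun t => intCast_injective_complex <| by
      simp only [AddMonoidHom.coe_toIntLinearMap, AddMonoidHom.mk'_apply, LinearMap.add_apply,
        Int.cast_add]
      rw [← (mem_intLattice_iff.mp (CuspForm.mem_intLattice_of_mem_heckeAlgebra one_le_two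
          t.2 (f + g).2) 1).choose_spec,
        ← (mem_intLattice_iff.mp (CuspForm.mem_intLattice_of_mem_heckeAlgebra one_le_two
          t.2 f.2) 1).choose_spec,
        ← (mem_intLattice_iff.mp (CuspForm.mem_intLattice_of_mem_heckeAlgebra one_le_two
          t.2 g.2) 1).choose_spec]
      exact congrArg (fun h => h t) (map_add (coeffPairing p) f g)

lemma intPairing_spec (f : CuspForm.intLattice p 2) (t : CuspForm.heckeAlgebra p 2 ∅) :
    ((intPairing f t : ℤ) : ℂ) = qCoeff ⇑(t.1 f.1) 1 :=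
  ((mem_intLattice_iff.mp (CuspForm.mem_intLattice_of_mem_heckeAlgebra one_le_two t.2 f.2)
    1).choose_spec).symm

/-- An Eisenstein character modulo `m` gives an integral cusp form congruent to the Eisenstein
series. -/
theorem exists_congr_form (hint : CuspForm.HasIntegralStructure p 2) {m : ℕ}
    {ψ : CuspForm.heckeAlgebra p 2 ∅ →+* ZMod m} (hψ : IsEisensteinChar ψ) :
    ∃ (φ : CuspForm (Gamma0 p) 2) (P : PowerSeries ℤ), HasSer φ P ∧ P.coeff 0 = 0 ∧
      (∀ n, n ≠ 0 → (m : ℤ) ∣ sigmaP p n - P.coeff n) ∧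
      (∀ n, n ≠ 0 → (m : ℤ) ∣ sigmaP p n - P.coeff (p * n)) := by
  let T := CuspForm.heckeAlgebra p 2 ∅
  let L := CuspForm.intLattice p 2
  have hTfin : Module.Finite ℤ T := heckeAlgebra_finite one_le_two hint ∅
  have hTfree : Module.Free ℤ T := Module.free_of_finite_type_torsion_free'
  have hLfin : Module.Finite ℤ L := CuspForm.intLattice.moduleFinite p
  have hLfree : Module.Free ℤ L := CuspForm.intLattice.moduleFree p
  choose tk htk htkψ using exists_coeffElem hψ
  let Φ : L →ₗ[ℤ] (T →ₗ[ℤ] ℤ) := intPairing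
  let Ψ : T →ₗ[ℤ] (L →ₗ[ℤ] ℤ) := Φ.flip
  have hcoeff : ∀ (f : L) (k : ℕ) (hk : k ≠ 0),
      qCoeff ⇑f.1 k = ((Φ f (tk k hk) : ℤ) : ℂ) := fun f k hk => by
    rw [intPairing_spec, htk]
  have hΦ : Function.Injective Φ := by
    refine (injective_iff_map_eq_zero _).mpr fun f hf => Subtype.ext ?_
    refine eq_zero_of_qCoeff_eq_zero fun k => ?_
    rcases eq_or_ne k 0 with rfl | hk
    · exact qCoeff_zero_index _
    · rw [hcoeff f k hk, hf, LinearMap.zero_apply, Int.cast_zero]
  have hΨ : Function.Injective Ψ := by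
    refine (injective_iff_map_eq_zero _).mpr fun t ht => Subtype.ext ?_
    refine end_eq_zero_of_intLattice hint _ fun f hf => eq_zero_of_qCoeff_eq_zero fun k => ?_
    rcases eq_or_ne k 0 with rfl | hk
    · exact qCoeff_zero_index _
    · let g : L := ⟨(tk k hk).1 f,
        CuspForm.mem_intLattice_of_mem_heckeAlgebra one_le_two (tk k hk).2 hf⟩
      have h0 : ((Φ g t : ℤ) : ℂ) = 0 := by
        rw [show Φ g t = Ψ t g from rfl, ht, LinearMap.zero_apply, Int.cast_zero]
      rw [intPairing_spec] at h0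
      have hc : tk k hk * t = t * tk k hk := mul_comm _ _
      rw [← htk k hk (t.1 f)]
      exact (congrArg (fun u : T => qCoeff ⇑(u.1 f) 1) hc).trans h0
  have hrank : Module.finrank ℤ (T →ₗ[ℤ] ℤ) ≤ Module.finrank ℤ (LinearMap.range Φ) := by
    rw [LinearMap.finrank_range_of_inj hΦ, Module.finrank_linearMap_self]
    calc Module.finrank ℤ T ≤ Module.finrank ℤ (L →ₗ[ℤ] ℤ) :=
          LinearMap.finrank_le_finrank_of_injective hΨ
      _ = Module.finrank ℤ L := Module.finrank_linearMap_self ℤ ℤ L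
  have hsurj : Function.Surjective Φ := by
    intro F
    have hq : Module.finrank ℤ ((T →ₗ[ℤ] ℤ) ⧸ LinearMap.range Φ) = 0 := by
      have := Submodule.finrank_quotient_add_finrank (LinearMap.range Φ)
      omega
    obtain ⟨d, hd0, hd⟩ :=
      Module.finrank_eq_zero_iff.mp hq (Submodule.Quotient.mk (p := LinearMap.range Φ) F)
    rw [← Submodule.Quotient.mk_smul, Submodule.Quotient.mk_eq_zero] at hd
    obtain ⟨f, hf⟩ := hd
    have hd' : (d : ℂ) ≠ 0 := Int.cast_ne_zero.mpr hd0
    have hmem : (d : ℂ)⁻¹ • f.1 ∈ L := mem_intLattice_iff.mpr fun k => by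
      rcases eq_or_ne k 0 with rfl | hk
      · exact ⟨0, by rw [qCoeff_zero_index, Int.cast_zero]⟩
      · refine ⟨F (tk k hk), ?_⟩
        rw [qCoeff_smul', hcoeff f k hk, hf, LinearMap.smul_apply, smul_eq_mul, Int.cast_mul,
          inv_mul_cancel_left₀ hd']
    refine ⟨⟨_, hmem⟩, LinearMap.ext fun t => intCast_injective_complex ?_⟩
    rw [intPairing_spec, map_smul, qCoeff_smul', ← intPairing_spec, hf, LinearMap.smul_apply,
      smul_eq_mul, Int.cast_mul, inv_mul_cancel_left₀ hd']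
  obtain ⟨F, hF⟩ := Module.projective_lifting_property
    (Int.castRingHom (ZMod m)).toAddMonoidHom.toIntLinearMap ψ.toAddMonoidHom.toIntLinearMap
    ZMod.intCast_surjective
  obtain ⟨f, hf⟩ := hsurj F
  have hcong : ∀ (k : ℕ) (hk : k ≠ 0), ((Φ f (tk k hk) : ℤ) : ZMod m) = (sigmaP p k : ZMod m) := by
    intro k hk
    rw [hf, ← htkψ k hk]
    exact LinearMap.congr_fun hF (tk k hk)
  let P : PowerSeries ℤ := PowerSeries.mk fun n => if h : n = 0 then 0 else Φ f (tk n h)
  have hinfty : Fact (IsCusp OnePoint.infty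
      (Subgroup.map (Matrix.SpecialLinearGroup.mapGL ℝ) (Gamma0 p))) :=
    ⟨by rw [Subgroup.IsArithmetic.isCusp_iff_isCusp_SL2Z, isCusp_SL2Z_iff']; exact ⟨1, by simp⟩⟩
  refine ⟨f.1, P, HasSer.of_qExpansion f.1 (one_mem_strictPeriods_Gamma0 p) fun n => ?_,
    by simp [P], fun n hn => ?_, fun n hn => ?_⟩
  · rcases eq_or_ne n 0 with rfl | hn
    · simpa [P, qCoeff] using qCoeff_zero_index f.1
    · simpa [P, qCoeff, hn] using hcoeff f n hn
  · rw [← ZMod.intCast_zmod_eq_zero_iff_dvd, Int.cast_sub, PowerSeries.coeff_mk, dif_neg hn,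
      hcong n hn, sub_self]
  · have hpn : p * n ≠ 0 := mul_ne_zero hp.out.ne_zero hn
    rw [← ZMod.intCast_zmod_eq_zero_iff_dvd, Int.cast_sub, PowerSeries.coeff_mk, dif_neg hpn,
      hcong (p * n) hpn, show p * n = n * p from mul_comm p n, sigmaP_mul_self hp.out hn, sub_self]

end FermatAgent.Eisenstein

end
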