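import Mathlib
import Fermat.Agent.Eisenstein.Character
import Fermat.Agent.Eisenstein.Dual
import Fermat.Agent.ModCurve.Group.Rank
import Fermat.Agent.ModCurve.Forms.Genus
import Fermat.Agent.Periods.WeightTwo

/-!
The Eisenstein character of the Hecke algebra modulo the numerator of `(p - 1) / 12`, through the
action of the Hecke algebra on periods.
-/

set_option autoImplicit false

noncomputable section

open CongruenceSubgroup ModularCurve ModularCurve.Period
open scoped MatrixGroups

namespace FermatAgent.Eisenstein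

open ModCurveGroup Periods

variable {p : ℕ} [hp : Fact p.Prime]

variable (p) in
/-- The homology lattice of `Γ₀(p)`. -/
abbrev Homology : Type := HomologyLattice (Gamma0 p)

omit hp in
lemma killsEP_of_isParabolicHom {A : Type*} [AddCommGroup A] [IsAddTorsionFree A]
    {φ : Additive (Gamma0 p) →+ A} (hφ : IsParabolicHom (Gamma0 p) φ) :
    KillsEP (Gamma0 p) φ := by
  intro γ hγ
  rcases hγ.lt_or_eq with hlt | heq
  · have h12 : γ ^ 12 = 1 := Subtype.ext (pow_twelve_eq_one hlt)
    refine nsmul_right_injective (show 12 ≠ 0 by norm_num) ?_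
    show 12 • φ (Additive.ofMul γ) = 12 • (0 : A)
    rw [← map_nsmul, ← ofMul_pow, h12, ofMul_one, map_zero, smul_zero]
  · exact hφ γ heq

omit hp in
lemma homProj_mem_parabolicHoms [NeZero p] :
    homProj (Gamma0 p) ∈ parabolicHoms ℤ (Gamma0 p) (Homology p) :=
  fun γ hγ => killsEP_homProj (Gamma0 p) γ hγ.le

omit hp in
lemma comp_homProj_mem_parabolicHoms [NeZero p] (u : Homology p →+ ℂ) :
    u.comp (homProj (Gamma0 p)) ∈ parabolicHoms ℂ (Gamma0 p) ℂ :=
  fun γ hγ => killsEP_comp_homProj (Gamma0 p) u γ hγ.le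

omit hp in
lemma eq_zero_of_forall_comp [NeZero p] {v : Homology p} (h : ∀ u : Homology p →+ ℂ, u v = 0) :
    v = 0 := by
  let b := Module.Free.chooseBasis ℤ (Homology p)
  refine b.forall_coord_eq_zero_iff.mp fun i => ?_
  exact Int.cast_eq_zero.mp (h ((Int.castAddHom ℂ).comp (b.coord i).toAddMonoidHom))

variable (p) in
/-- The Eisenstein character on the homology lattice. -/
def eisFunctional [NeZero p] : Homology p →+ ZMod (eisensteinNumerator p) :=
  homProjLift (Gamma0 p) killsEP_eisChar

lemma eisFunctional_homProj [NeZero p] (γ : Additive (Gamma0 p)) :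
    eisFunctional p (homProj (Gamma0 p) γ) = eisChar p γ :=
  homProjLift_homProj (Gamma0 p) killsEP_eisChar γ

/-- `M` is the action of `t` on the homology lattice. -/
def ActsAs [NeZero p] (t : Module.End ℂ (CuspForm (Gamma0 p) 2)) (M : Homology p →+ Homology p) :
    Prop :=
  ∀ (u : Homology p →+ ℂ) (f g : CuspForm (Gamma0 p) 2),
    periodHomPair p (f, g) = u.comp (homProj (Gamma0 p)) →
      periodHomPair p (t f, t g) = (u.comp M).comp (homProj (Gamma0 p))

/-- `t` acts on the Eisenstein character by `c`. -/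
def EisActs [NeZero p] (t : Module.End ℂ (CuspForm (Gamma0 p) 2))
    (c : ZMod (eisensteinNumerator p)) : Prop :=
  ∃ M, ActsAs t M ∧ ∀ v, eisFunctional p (M v) = c * eisFunctional p v

namespace EisActs

variable [NeZero p] {s t : Module.End ℂ (CuspForm (Gamma0 p) 2)}
  {c d : ZMod (eisensteinNumerator p)}

lemma add (hs : EisActs s c) (ht : EisActs t d) : EisActs (s + t) (c + d) := by
  obtain ⟨M, hM, hc⟩ := hs
  obtain ⟨M', hM', hd⟩ := ht
  refine ⟨M + M', fun u f g h => ?_, fun v => ?_⟩
  · rw [LinearMap.add_apply, LinearMap.add_apply, ← Prod.mk_add_mk, map_add, hM u f g h,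
      hM' u f g h, AddMonoidHom.comp_add, AddMonoidHom.add_comp]
  · rw [AddMonoidHom.add_apply, map_add, hc, hd, add_mul]

lemma mul (hs : EisActs s c) (ht : EisActs t d) : EisActs (s * t) (c * d) := by
  obtain ⟨M, hM, hc⟩ := hs
  obtain ⟨M', hM', hd⟩ := ht
  refine ⟨M'.comp M, fun u f g h => ?_, fun v => ?_⟩
  · exact hM (u.comp M') (t f) (t g) (hM' u f g h)
  · rw [AddMonoidHom.comp_apply, hd, hc]
    ring

lemma intCast (a : ℤ) :
    EisActs (p := p) (algebraMap ℤ (Module.End ℂ (CuspForm (Gamma0 p) 2)) a)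
      (a : ZMod (eisensteinNumerator p)) := by
  refine ⟨a • AddMonoidHom.id _, fun u f g h => ?_, fun v => ?_⟩
  · rw [eq_intCast, Module.End.intCast_apply, Module.End.intCast_apply, ← Prod.smul_mk,
      map_zsmul, h]
    ext γ
    simp
  · rw [AddMonoidHom.smul_apply, AddMonoidHom.id_apply, map_zsmul, zsmul_eq_mul]

lemma unique (h1 : EisActs t c) (h2 : EisActs t d) : c = d := by
  obtain ⟨M, hM, hc⟩ := h1
  obtain ⟨M', hM', hd⟩ := h2
  obtain ⟨γ, hγ⟩ := exists_eisChar_eq_one (p := p)
  set v := homProj (Gamma0 p) (Additive.ofMul γ) with hv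
  have hMM : M v = M' v := by
    refine sub_eq_zero.mp (eq_zero_of_forall_comp fun u => ?_)
    obtain ⟨⟨f, g⟩, hfg⟩ : u.comp (homProj (Gamma0 p)) ∈ LinearMap.range (periodHomPair p) := by
      rw [ModCurve.Forms.range_periodHomPair p]
      exact comp_homProj_mem_parabolicHoms u
    have h := DFunLike.congr_fun ((hM u f g hfg).symm.trans (hM' u f g hfg)) (Additive.ofMul γ)
    rw [map_sub, sub_eq_zero]
    exact h
  have h := hc v
  rw [hMM, hd, hv, eisFunctional_homProj, hγ, mul_one, mul_one] at h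
  exact h.symm

lemma of_corr (c : ZMod (eisensteinNumerator p))
    (HA : (Additive (Gamma0 p) →+ Homology p) →+ (Additive (Gamma0 p) →+ Homology p))
    (hpar : IsParabolicHom (Gamma0 p) (HA (homProj (Gamma0 p))))
    (hnat : ∀ (u : Homology p →+ ℂ) (f g : CuspForm (Gamma0 p) 2),
      periodHomPair p (f, g) = u.comp (homProj (Gamma0 p)) →
        periodHomPair p (t f, t g) = u.comp (HA (homProj (Gamma0 p))))
    (heis : ∀ γ, eisFunctional p (HA (homProj (Gamma0 p)) γ) = c * eisChar p γ) :
    EisActs t c := by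
  have hk := killsEP_of_isParabolicHom hpar
  refine ⟨homProjLift (Gamma0 p) hk, fun u f g h => (hnat u f g h).trans ?_, fun v => ?_⟩
  · ext γ
    simp
  · obtain ⟨γ, rfl⟩ := homProj_surjective (Gamma0 p) v
    rw [homProjLift_homProj, heis, eisFunctional_homProj]

lemma heckeT {l : ℕ} (hl : l.Prime) (hlp : ¬ l ∣ p) :
    EisActs (CuspForm.heckeTLin 2 hl hlp) (1 + (l : ZMod (eisensteinNumerator p))) := by
  refine of_corr _ (heckeHomT ℤ p hl hlp).toAddMonoidHom
    (heckeHomT_mem_parabolicHoms p hl hlp homProj_mem_parabolicHoms) (fun u f g h => ?_)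
    fun γ => ?_
  · rw [periodHomPair_heckeTLin, h]
    exact (heckeHomT_map (R := ℤ) p hl hlp u (homProj (Gamma0 p)))
  · show ((eisFunctional p).comp (heckeHomT ℤ p hl hlp (homProj (Gamma0 p)))) γ = _
    rw [← heckeHomT_map, show (eisFunctional p).comp (homProj (Gamma0 p)) = eisChar p from
      AddMonoidHom.ext eisFunctional_homProj, heckeHomT_eisChar hl hlp, AddMonoidHom.smul_apply,
      zsmul_eq_mul]
    push_cast
    rfl

lemma heckeU : EisActs (CuspForm.heckeULin 2 (dvd_refl p)) (1 : ZMod (eisensteinNumerator p)) := by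
  refine of_corr _ (heckeHomU ℤ p (dvd_refl p)).toAddMonoidHom
    (heckeHomU_mem_parabolicHoms p (dvd_refl p) homProj_mem_parabolicHoms) (fun u f g h => ?_)
    fun γ => ?_
  · rw [periodHomPair_heckeULin, h]
    exact (heckeHomU_map (R := ℤ) p (dvd_refl p) u (homProj (Gamma0 p)))
  · show ((eisFunctional p).comp (heckeHomU ℤ p (dvd_refl p) (homProj (Gamma0 p)))) γ = _
    rw [← heckeHomU_map, show (eisFunctional p).comp (homProj (Gamma0 p)) = eisChar p from
      AddMonoidHom.ext eisFunctional_homProj, heckeHomU_eisChar, one_mul]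

lemma exists_of_mem {t : Module.End ℂ (CuspForm (Gamma0 p) 2)}
    (ht : t ∈ CuspForm.heckeAlgebra p 2 ∅) : ∃ c, EisActs t c := by
  induction ht using Algebra.adjoin_induction with
  | mem x hx =>
    rcases hx with ⟨l, hl, hlp, -, rfl⟩ | ⟨q, hqp, hq, -, rfl⟩
    · exact ⟨_, heckeT hl hlp⟩
    · obtain rfl : q = p := (Nat.prime_dvd_prime_iff_eq hq hp.out).mp hqp
      exact ⟨_, heckeU⟩
  | algebraMap a => exact ⟨_, intCast a⟩
  | add x y _ _ hx hy => exact ⟨_, hx.choose_spec.add hy.choose_spec⟩
  | mul x y _ _ hx hy => exact ⟨_, hx.choose_spec.mul hy.choose_spec⟩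

end EisActs

variable (p) in
/-- The Eisenstein eigenvalue of an element of the Hecke algebra. -/
def eisValue [NeZero p] (t : CuspForm.heckeAlgebra p 2 ∅) : ZMod (eisensteinNumerator p) :=
  (EisActs.exists_of_mem t.2).choose

lemma eisValue_eq [NeZero p] (t : CuspForm.heckeAlgebra p 2 ∅) {c : ZMod (eisensteinNumerator p)}
    (h : EisActs t.1 c) : eisValue p t = c :=
  (EisActs.exists_of_mem t.2).choose_spec.unique h

lemma eisValue_spec [NeZero p] (t : CuspForm.heckeAlgebra p 2 ∅) :
    EisActs t.1 (eisValue p t) :=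
  (EisActs.exists_of_mem t.2).choose_spec

variable (p) in
/-- The Eisenstein character of the Hecke algebra. -/
def eisHeckeChar [NeZero p] :
    CuspForm.heckeAlgebra p 2 ∅ →+* ZMod (eisensteinNumerator p) where
  toFun := eisValue p
  map_one' := eisValue_eq 1 (by simpa using EisActs.intCast (p := p) 1)
  map_zero' := eisValue_eq 0 (by simpa using EisActs.intCast (p := p) 0)
  map_add' s t := eisValue_eq _ ((eisValue_spec s).add (eisValue_spec t))
  map_mul' s t := eisValue_eq _ ((eisValue_spec s).mul (eisValue_spec t))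

theorem isEisensteinChar_eisHeckeChar [NeZero p] : IsEisensteinChar (eisHeckeChar p) where
  map_T _ hl hlp := eisValue_eq _ (EisActs.heckeT hl hlp)
  map_U := eisValue_eq _ EisActs.heckeU

end FermatAgent.Eisenstein

end
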