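import Mathlib
import Fermat.Prelude.Def_CuspForm_HeckeEvalForms
import Fermat.Prelude.Thm_ModularForm_sturm_bound_Gamma0
import Fermat.Agent.ModCurve.Group.Counts
import Fermat.Agent.ModCurve.Forms.IntegralForms
import Fermat.Agent.Eisenstein.HeckeChar

/-!
The Eisenstein index at prime level: `#(T / I) = num((p - 1) / 12)`.
-/

set_option autoImplicit false

noncomputable section

open CongruenceSubgroup ModularCurve CuspForm

namespace FermatAgent.Eisenstein

lemma exists_comp_eq_of_bijective {A B C : Type*} [Ring A] [Ring B] [Ring C] (f : A →+* B)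
    (hf : Function.Bijective f) (g : A →+* C) : ∃ χ : B →+* C, χ.comp f = g :=
  ⟨g.comp (RingEquiv.ofBijective f hf).symm.toRingHom,
    RingHom.ext fun a => congrArg g ((RingEquiv.ofBijective f hf).symm_apply_apply a)⟩

variable {p : ℕ} [hp : Fact p.Prime] [NeZero p]

lemma cuspForm_eq_zero_of_lt_five (hp5 : p < 5) (f : CuspForm (Gamma0 p) 2) : f = 0 := by
  let g : ModularForm (Gamma0 p) 2 :=
    { toFun := f
      slash_action_eq' := f.slash_action_eq'
      holo' := f.holo'
      bdd_at_cusps' := fun hc γ hγ => (f.zero_at_cusps' hc γ hγ).boundedAtFilter }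
  have hi : (Gamma0 p).index ≤ 4 := by
    rw [ModCurveGroup.index_gamma0, dedekindPsi]
    have hp4 : p ≠ 4 := by
      intro h
      have := hp.out
      rw [h] at this
      norm_num at this
    refine (Finset.sum_le_sum_of_subset (Finset.filter_subset _ _)).trans ?_
    rw [hp.out.divisors, Finset.sum_pair hp.out.ne_one.symm, Nat.div_one, Nat.div_self hp.out.pos]
    omega
  have hg : g = 0 := by
    refine ModularForm.sturm_bound_Gamma0 p g fun n hn => ?_
    obtain rfl : n = 0 := by omega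
    exact CuspFormClass.qExpansion_coeff_zero f one_pos (one_mem_strictPeriods_Gamma0 p)
  ext z
  exact congrArg (fun h : ModularForm (Gamma0 p) 2 => h z) hg

lemma dvd_numerator_of_form (φ : CuspForm (Gamma0 p) 2) {P : PowerSeries ℤ} (hP : HasSer φ P)
    (hP0 : P.coeff 0 = 0) {m : ℕ}
    (h1 : ∀ n, n ≠ 0 → (m : ℤ) ∣ sigmaP p n - P.coeff n)
    (h2 : ∀ n, n ≠ 0 → (m : ℤ) ∣ sigmaP p n - P.coeff (p * n)) :
    m ∣ eisensteinNumerator p := by
  rcases lt_or_ge p 5 with hp5 | hp5
  · have h0 : P = 0 := by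
      refine HasSer.eq_zero ?_
      rwa [cuspForm_eq_zero_of_lt_five hp5 φ, FunLike.coe_zero] at hP
    have h := h1 1 one_ne_zero
    rw [h0, map_zero, sub_zero, show sigmaP p 1 = 1 by simp [sigmaP, hp.out.ne_one]] at h
    exact (Int.natCast_dvd_natCast.mp h).trans (one_dvd _)
  · exact dvd_numerator_of_congr hp5 φ hP hP0 h1 h2

variable (p) in
/-- The image of the Eisenstein ideal. -/
abbrev eisensteinImage : Ideal (heckeLatticeAlgebra p ∅) :=
  Ideal.map ((latticeRestrictHom p ∅).toRingHom.comp (heckeEvalForms p 2)) (eisensteinIdeal p)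

omit hp in
lemma heckeEvalForms_surjective : Function.Surjective (heckeEvalForms p 2) := by
  rintro ⟨t, ht⟩
  induction ht using Algebra.adjoin_induction with
  | mem x hx =>
    rcases hx with ⟨l, hl, hlp, -, rfl⟩ | ⟨q, hqp, hq, -, rfl⟩
    · exact ⟨heckeGen ⟨l, hl⟩, heckeEvalForms_heckeGen_of_not_dvd (ℓ := ⟨l, hl⟩) hlp⟩
    · exact ⟨heckeGen ⟨q, hq⟩, heckeEvalForms_heckeGen_of_dvd (q := ⟨q, hq⟩) hqp⟩
  | algebraMap a => exact ⟨MvPolynomial.C a, heckeEvalForms_C p 2 a⟩
  | add x y _ _ hx hy =>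
    obtain ⟨a, ha⟩ := hx
    obtain ⟨b, hb⟩ := hy
    exact ⟨a + b, by rw [map_add, ha, hb]; rfl⟩
  | mul x y _ _ hx hy =>
    obtain ⟨a, ha⟩ := hx
    obtain ⟨b, hb⟩ := hy
    exact ⟨a * b, by rw [map_mul, ha, hb]; rfl⟩

variable (p) in
/-- The composite map from the abstract Hecke algebra to `T / I`. -/
def toQuotient : HeckeAlg →+* heckeLatticeAlgebra p ∅ ⧸ eisensteinImage p :=
  (Ideal.Quotient.mk _).comp ((latticeRestrictHom p ∅).toRingHom.comp (heckeEvalForms p 2))

omit hp in
lemma toQuotient_surjective : Function.Surjective (toQuotient p) :=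
  Ideal.Quotient.mk_surjective.comp
    ((latticeRestrictHom_surjective p ∅).comp heckeEvalForms_surjective)

omit hp in
lemma toQuotient_eq (x : HeckeAlg) :
    toQuotient p x = ((MvPolynomial.aeval (eisensteinSystem p) x : ℤ) :
      heckeLatticeAlgebra p ∅ ⧸ eisensteinImage p) := by
  have h : x - MvPolynomial.C (MvPolynomial.aeval (eisensteinSystem p) x) ∈ eisensteinIdeal p := by
    rw [eisensteinIdeal, mem_eigenIdeal_iff, map_sub, MvPolynomial.aeval_C]
    simp
  have h0 : toQuotient p (x - MvPolynomial.C (MvPolynomial.aeval (eisensteinSystem p) x)) = 0 :=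
    Ideal.Quotient.eq_zero_iff_mem.mpr (Ideal.mem_map_of_mem _ h)
  rw [map_sub, sub_eq_zero] at h0
  rw [h0, ← eq_intCast ((toQuotient p).comp MvPolynomial.C)]
  rfl

omit hp in
lemma intCast_surjective_quotient :
    Function.Surjective (Int.cast : ℤ → heckeLatticeAlgebra p ∅ ⧸ eisensteinImage p) := fun q => by
  obtain ⟨x, rfl⟩ := toQuotient_surjective q
  exact ⟨_, (toQuotient_eq x).symm⟩

/-- The index of the Eisenstein ideal at prime level. -/
theorem natCard_quotient_eisensteinIdeal :
    Nat.card (heckeLatticeAlgebra p ∅ ⧸ eisensteinImage p) = eisensteinNumerator p := by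
  set Q := heckeLatticeAlgebra p ∅ ⧸ eisensteinImage p
  have hint : CuspForm.HasIntegralStructure p 2 := ModCurve.Forms.hasIntegralStructure_two p
  obtain ⟨m, hm⟩ := CharP.exists Q
  let e : ZMod m ≃+* Q := RingEquiv.ofBijective (ZMod.castHom (dvd_refl m) Q)
    ⟨ZMod.castHom_injective Q, fun q => by
      obtain ⟨k, rfl⟩ := intCast_surjective_quotient q
      exact ⟨k, map_intCast _ k⟩⟩
  rw [← Nat.card_congr e.toEquiv, Nat.card_zmod]
  refine Nat.dvd_antisymm ?_ ?_
  · let ψ : heckeAlgebra p 2 ∅ →+* ZMod m :=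
      e.symm.toRingHom.comp ((Ideal.Quotient.mk _).comp (latticeRestrictHom p ∅).toRingHom)
    have hgen : ∀ ℓ : Nat.Primes,
        ψ (heckeFormsGen p 2 ℓ) = ((eisensteinSystem p ℓ : ℤ) : ZMod m) := fun ℓ => by
      have h := toQuotient_eq (p := p) (heckeGen ℓ)
      rw [heckeGen, MvPolynomial.aeval_X] at h
      rw [← heckeEvalForms_heckeGen]
      show e.symm (toQuotient p (heckeGen ℓ)) = _
      rw [heckeGen, h, map_intCast]
    have hψ : IsEisensteinChar ψ :=
      { map_T := fun l hl hlp => by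
          have h := hgen ⟨l, hl⟩
          rw [heckeFormsGen_of_not_dvd (ℓ := ⟨l, hl⟩) hlp] at h
          rw [h, eisensteinSystem_of_not_dvd (ℓ := ⟨l, hl⟩) hlp]
          push_cast
          rfl
        map_U := by
          have h := hgen ⟨p, hp.out⟩
          rw [heckeFormsGen_of_dvd (q := ⟨p, hp.out⟩) dvd_rfl] at h
          rw [h, eisensteinSystem_of_dvd (ℓ := ⟨p, hp.out⟩) dvd_rfl, Int.cast_one] }
    obtain ⟨φ, P, hP, hP0, h1, h2⟩ := exists_congr_form hint hψ
    exact dvd_numerator_of_form φ hP hP0 h1 h2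
  · obtain ⟨χ, hχe⟩ := exists_comp_eq_of_bijective (latticeRestrictHom p ∅).toRingHom
      (latticeRestrictHom_bijective p ∅ hint) (eisHeckeChar p)
    have hχ := isEisensteinChar_eisHeckeChar (p := p)
    have hcomp : χ.comp ((latticeRestrictHom p ∅).toRingHom.comp (heckeEvalForms p 2)) =
        (Int.castRingHom (ZMod (eisensteinNumerator p))).comp
          (MvPolynomial.aeval (eisensteinSystem p)).toRingHom := by
      refine MvPolynomial.ringHom_ext (fun a => by simp) fun ℓ => ?_
      have he : ∀ t : heckeAlgebra p 2 ∅,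
          χ ((latticeRestrictHom p ∅).toRingHom t) = eisHeckeChar p t := RingHom.congr_fun hχe
      rw [RingHom.comp_apply, RingHom.comp_apply, RingHom.comp_apply, he]
      show eisHeckeChar p (heckeEvalForms p 2 (heckeGen ℓ)) = _
      rw [heckeEvalForms_heckeGen, AlgHom.toRingHom_eq_coe, RingHom.coe_coe,
        MvPolynomial.aeval_X, eq_intCast]
      by_cases h : (ℓ : ℕ) ∣ p
      · obtain rfl : ℓ = ⟨p, hp.out⟩ :=
          Subtype.ext ((Nat.prime_dvd_prime_iff_eq ℓ.2 hp.out).mp h)
        rw [heckeFormsGen_of_dvd h, eisensteinSystem_of_dvd h, hχ.map_U, Int.cast_one]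
      · rw [heckeFormsGen_of_not_dvd h, eisensteinSystem_of_not_dvd h, hχ.map_T ℓ ℓ.2 h]
        push_cast
        rfl
    have hI : eisensteinImage p ≤ RingHom.ker χ := Ideal.map_le_iff_le_comap.mpr fun x hx => by
      rw [Ideal.mem_comap, RingHom.mem_ker]
      refine (RingHom.congr_fun hcomp x).trans ?_
      rw [RingHom.comp_apply, AlgHom.toRingHom_eq_coe, RingHom.coe_coe,
        (mem_eigenIdeal_iff _ x).mp hx, map_zero]
    let χQ : Q →+* ZMod (eisensteinNumerator p) := Ideal.Quotient.lift _ χ fun a ha => hI ha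
    rw [← ZMod.natCast_eq_zero_iff, ← map_natCast χQ, CharP.cast_eq_zero Q m, map_zero]

end FermatAgent.Eisenstein

end
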